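import Fermat.Agent.S55.G.Exist121.Count

/-!
# S55, layer G, block EXIST: abstract group theory for the existence theorem mod `p`

Mathlib only.  Author: helper121.

* `ker_le_pMul_of_equiv` : if `A / N ≃ Q`, `[A : pA]` is finite and `[A : pA] ≤ [Q : pQ]`, then
  `N ≤ pA`.  (Applied to `A = C(L)^G`, `N = N_G C(L)`, `Q = G^ab`: the reciprocity isomorphism.)
* `relIndex_le_of_kummer` : Kummer bound.  If `κ : V → Hom(G, Mˣ)` has values killed by `p` and
  separates the cosets of `P` in `V`, then `[V : P] ≤ [G^ab : p G^ab]`.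
-/

set_option autoImplicit false

namespace Fermat.Agent.S55.G.Exist121

section Quotient

variable {A : Type*} [AddCommGroup A]

lemma comap_pMul_of_surjective {B : Type*} [AddCommGroup B] (π : A →+ B)
    (hπ : Function.Surjective π) (p : ℕ) :
    (pMul B p).comap π = pMul A p ⊔ π.ker := by
  apply le_antisymm
  · intro a ha
    obtain ⟨b, hb⟩ := ha
    obtain ⟨b', rfl⟩ := hπ b
    have h1 : π (p • b') = π a := by
      rw [map_nsmul]; exact hb
    have h2 : a - p • b' ∈ π.ker := by
      rw [AddMonoidHom.mem_ker, map_sub, h1, sub_self]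
    have h4 : a = p • b' + (a - p • b') := by abel
    rw [h4]
    exact AddSubgroup.add_mem_sup (nsmul_mem_pMul p b') h2
  · rw [sup_le_iff]
    constructor
    · rintro _ ⟨b, rfl⟩
      exact ⟨π b, by simp⟩
    · intro a ha
      have h0 : π a = 0 := ha
      show π a ∈ pMul B p
      rw [h0]
      exact zero_mem _

lemma index_pMul_of_surjective {B : Type*} [AddCommGroup B] (π : A →+ B)
    (hπ : Function.Surjective π) (p : ℕ) :
    (pMul B p).index = (pMul A p ⊔ π.ker).index := by
  rw [← comap_pMul_of_surjective π hπ, AddSubgroup.index_comap_of_surjective _ hπ]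

lemma map_pMul_of_equiv {Q Q' : Type*} [AddCommGroup Q] [AddCommGroup Q'] (e : Q ≃+ Q') (p : ℕ) :
    (pMul Q' p).comap e.toAddMonoidHom = pMul Q p := by
  ext q
  constructor
  · rintro ⟨b, hb⟩
    refine ⟨e.symm b, ?_⟩
    apply e.injective
    show e (p • e.symm b) = e q
    rw [map_nsmul, e.apply_symm_apply]
    exact hb
  · rintro ⟨b, rfl⟩
    exact ⟨e b, by simp⟩

lemma index_pMul_congr {Q Q' : Type*} [AddCommGroup Q] [AddCommGroup Q'] (e : Q ≃+ Q') (p : ℕ) :
    (pMul Q p).index = (pMul Q' p).index := by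
  rw [← map_pMul_of_equiv e p, AddSubgroup.index_comap_of_surjective _ e.surjective]

/-- **Reciprocity + counting.**  If `π : A → B` is onto, `B ≃ Q`, `[A : pA] ≠ 0` and
`[A : pA] ≤ [Q : pQ]`, then `ker π ≤ pA`. -/
theorem ker_le_pMul_of_equiv {B Q : Type*} [AddCommGroup B] [AddCommGroup Q] (π : A →+ B)
    (hπ : Function.Surjective π) (e : Q ≃+ B)
    (p : ℕ) (hA : (pMul A p).index ≠ 0) (hle : (pMul A p).index ≤ (pMul Q p).index) :
    π.ker ≤ pMul A p := by
  have h1 : (pMul A p ⊔ π.ker).index = (pMul Q p).index := by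
    rw [← index_pMul_of_surjective π hπ, index_pMul_congr e p]
  have h2 : pMul A p = pMul A p ⊔ π.ker :=
    eq_of_le_of_index_le le_sup_left hA (h1 ▸ hle)
  rw [h2]
  exact le_sup_right

end Quotient

section Kummer

open scoped Classical in
/-- `[G^ab : p G^ab]` as the cardinality of the multiplicative quotient. -/
lemma index_pMul_abelianization (G : Type*) [Group G] (p : ℕ) :
    (pMul (Additive (Abelianization G)) p).index =
      (powMonoidHom p : Abelianization G →* Abelianization G).range.index := by
  have h : pMul (Additive (Abelianization G)) p =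
      Subgroup.toAddSubgroup (powMonoidHom p : Abelianization G →* Abelianization G).range := by
    ext x
    constructor
    · rintro ⟨b, rfl⟩
      exact ⟨b.toMul, rfl⟩
    · rintro ⟨b, hb⟩
      exact ⟨Additive.ofMul b, hb⟩
  rw [h]
  rfl

/-- **Kummer bound.**  Let `P ≤ V` be subgroups of an abelian group `X`, `G` a finite group, `M` a
commutative monoid with enough `p`-th roots of unity, and `κ : V → Hom(G, Mˣ)` a map with values
killed by `p` which separates the cosets of `P`.  Then `[V : P] ≤ [G^ab : p G^ab]`. -/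
theorem relIndex_le_of_kummer {X : Type*} [AddCommGroup X] (V P : AddSubgroup X)
    {G M : Type*} [Group G] [Finite G] [CommMonoid M] (p : ℕ) [NeZero p]
    [HasEnoughRootsOfUnity M p]
    (κ : V → (G →* Mˣ)) (hκp : ∀ v g, κ v g ^ p = 1)
    (hκ : ∀ v v' : V, κ v = κ v' → (v : X) - (v' : X) ∈ P) :
    P.relIndex V ≤ (pMul (Additive (Abelianization G)) p).index := by
  classical
  rw [index_pMul_abelianization]
  set R : Subgroup (Abelianization G) :=
    (powMonoidHom p : Abelianization G →* Abelianization G).range with hR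
  -- the quotient `Ā = G^ab / p`
  have hexp : Monoid.exponent (Abelianization G ⧸ R) ∣ p := by
    apply Monoid.exponent_dvd_of_forall_pow_eq_one
    intro a
    obtain ⟨b, rfl⟩ := QuotientGroup.mk_surjective a
    rw [← QuotientGroup.mk_pow, QuotientGroup.eq_one_iff]
    exact ⟨b, rfl⟩
  have : HasEnoughRootsOfUnity M (Monoid.exponent (Abelianization G ⧸ R)) :=
    HasEnoughRootsOfUnity.of_dvd M hexp
  have hcard : Nat.card ((Abelianization G ⧸ R) →* Mˣ) = Nat.card (Abelianization G ⧸ R) :=
    CommGroup.card_monoidHom_of_hasEnoughRootsOfUnity (Abelianization G ⧸ R) M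
  have : Finite ((Abelianization G ⧸ R) →* Mˣ) := by
    apply Nat.finite_of_card_ne_zero
    rw [hcard]
    exact Nat.card_pos.ne'
  -- the induced characters
  let κ1 : V → (Abelianization G →* Mˣ) := fun v => Abelianization.lift (κ v)
  have hκ1 : ∀ v, R ≤ (κ1 v).ker := by
    rintro v _ ⟨b, rfl⟩
    rw [MonoidHom.mem_ker]
    show κ1 v (b ^ p) = 1
    rw [map_pow]
    obtain ⟨g, rfl⟩ := QuotientGroup.mk_surjective b
    show (Abelianization.lift (κ v)) (Abelianization.of g) ^ p = 1
    rw [Abelianization.lift_apply_of]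
    exact hκp v g
  let κ2 : V → ((Abelianization G ⧸ R) →* Mˣ) := fun v => QuotientGroup.lift R (κ1 v) (hκ1 v)
  have hκ2 : ∀ v v' : V, κ2 v = κ2 v' → κ v = κ v' := by
    intro v v' h
    ext g
    have h1 := congrArg (fun φ : (Abelianization G ⧸ R) →* Mˣ =>
      φ (QuotientGroup.mk (Abelianization.of g))) h
    simp only [κ2, κ1, QuotientGroup.lift_mk, Abelianization.lift_apply_of] at h1
    rw [h1]
  -- injection of `V / P` into the character group
  let f : (V ⧸ P.addSubgroupOf V) → ((Abelianization G ⧸ R) →* Mˣ) := fun q => κ2 q.out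
  have hf : Function.Injective f := by
    intro q q' h
    have h1 := hκ _ _ (hκ2 _ _ h)
    have h2 : q.out - q'.out ∈ P.addSubgroupOf V := by
      rw [AddSubgroup.mem_addSubgroupOf]
      simpa using h1
    have h3 : (QuotientAddGroup.mk q.out : V ⧸ P.addSubgroupOf V) = QuotientAddGroup.mk q'.out := by
      rw [QuotientAddGroup.eq]
      have : -q.out + q'.out = -(q.out - q'.out) := by abel
      rw [this]
      exact neg_mem h2
    simpa using h3
  have h1 : Nat.card (V ⧸ P.addSubgroupOf V) ≤ Nat.card ((Abelianization G ⧸ R) →* Mˣ) :=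
    Nat.card_le_card_of_injective f hf
  rw [hcard] at h1
  exact h1

end Kummer

end Fermat.Agent.S55.G.Exist121
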