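import Fermat.Agent.S55.G.Spec
import Fermat.Agent.S55.G.Exist121.Abstract

/-!
# S55, layer G, block EXIST (global existence theorem mod `p`): INTERFACE

Author: helper121.  Plan: `coord/S55-G-EXIST.md`.  Only definitions and `def XxxSpec : Prop`.
Vocabulary: `G/Defs.lean` (helper421), `G/Spec.lean`, `T/Spec.lean`, `Exist121/Index.lean`.

Target (`GD6` of `coord/S55-E1.md`, intrinsic model): `ExistCoreSpec` —
for `L/K` Galois with `p`-group `G`, unramified outside `S ∋ p`, `μ_p ⊂ K`, such that every element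
of the `p`-Selmer group `V_S(K) = {x ∈ Kˣ | p ∣ ord_w x ∀ w ∉ S}` is a `p`-th power in `L`:
`N_G C_S(L) ⊆ p · C_S(L)^G`.

Leaves:
* `RecipSpec`      reciprocity isomorphism `G^ab ≃ C_S(L)^G / N_G C_S(L)` for `p`-groups
                   (from `PClassModuleSpec` + `T.ClassModuleOfCyclicSpec` + `T.TateReciprocitySpec`);
* `DescentTopSpec` `C_S(K) ≃ C_S(L)^G` (from `DescentSpec`);
* `PowIndexSpec`   `[J_S(K) : p J_S(K)] = [E_S(K) : p E_S(K)]²` (local power index + `S`-units);
* `ShaBoundSpec`   `[Sha : pKˣ] ≤ [Cl_S : p Cl_S]`;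
* `CountSpec`      `[C_S(K) : p C_S(K)] ≤ [V_S(K) : pKˣ]`, finite (from the two previous ones).
-/

set_option autoImplicit false

open scoped NumberField
open IsDedekindDomain

noncomputable section

namespace Fermat.Agent.S55.G.Exist121

open Fermat.Agent.S55.G

/-- The `p`-Selmer group `V_S(K) = {x ∈ Kˣ | p ∣ ord_w(x) for all w ∉ S}` (additively). -/
def selmer (S : Finset Nat.Primes) (K : Type) [Field K] [NumberField K] (p : ℕ) :
    AddSubgroup (Additive Kˣ) := selV (ordHom S K) p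

/-- `Sha_S(K) = {x ∈ V_S(K) | x ⊗ 1 ∈ J_S(K)^p}` (additively). -/
def shaS (S : Finset Nat.Primes) (K : Type) [Field K] [NumberField K] (p : ℕ) :
    AddSubgroup (Additive Kˣ) := sha (unitsDiag S K) (ordHom S K) p

lemma mem_selmer_iff (S : Finset Nat.Primes) (K : Type) [Field K] [NumberField K] (p : ℕ)
    (x : Additive Kˣ) :
    x ∈ selmer S K p ↔ ∃ d : PrimeOut S K →₀ ℤ, p • d = ordHom S K x := Iff.rfl

/-- **EX-REC (reciprocity isomorphism, `p`-groups).**  Let `p` be an odd prime, `p ∈ S`, `G` a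
finite `p`-group acting faithfully on `L`, unramified outside `S`, `μ_p ⊂ L^G`.  Then
`G^ab ≃ C_S(L)^G / N_G C_S(L)`. -/
def RecipSpec : Prop :=
  ∀ (p : ℕ) [hp : Fact p.Prime], p ≠ 2 →
  ∀ (S : Finset Nat.Primes) (G L : Type) [Group G] [Fintype G] [Field L] [NumberField L]
    [MulSemiringAction G L] [FaithfulSMul G L],
    (⟨p, hp.out⟩ : Nat.Primes) ∈ S → IsPGroup p G → IsUnramOut S G L →
    HasFixedRootOfUnity p G L →
    Nonempty (Additive (Abelianization G) ≃+ T.hat0 (CRep S G L))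

/-- **EX-DESC (descent to the base field).**  For `L/K` Galois with group `G`, unramified outside
`S ≠ ∅`: an injective map `ι : C_S(K) → C_S(L)` with image `C_S(L)^G`, which is the base change
map on the image of `J_S(K)`. -/
def DescentTopSpec : Prop :=
  ∀ (S : Finset Nat.Primes) (G K L : Type) [Group G] [Finite G] [Field K] [NumberField K]
    [Field L] [NumberField L] [Algebra K L] [MulSemiringAction G L] [IsGaloisGroup G K L],
    S.Nonempty → IsUnramOut S G L →
    ∃ ι : CS S K →+ CS S L,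
      Function.Injective ι ∧
      (∀ c : CS S L, (∀ g : G, cRepr S G L g c = c) ↔ c ∈ Set.range ι) ∧
      (∀ y : Additive (AS S K)ˣ,
        ι ((principal S K).mkQ (y, 0)) = (principal S L).mkQ (jMap S K L y, 0))

/-- **EX-POW (numerics).**  For a number field `K ∋ μ_p`, `p` odd, `p ∈ S`:
`[J_S(K) : p J_S(K)] = [E_S(K) : p E_S(K)]²`
(both sides are `p ^ (2 #{w | S} + [K : ℚ])`: local power index formula, Dirichlet's `S`-unit
theorem, `K` totally complex). -/
def PowIndexSpec : Prop :=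
  ∀ (p : ℕ) [hp : Fact p.Prime], p ≠ 2 →
  ∀ (S : Finset Nat.Primes) (K : Type) [Field K] [NumberField K],
    (⟨p, hp.out⟩ : Nat.Primes) ∈ S → (∃ ζ : K, IsPrimitiveRoot ζ p) →
    (pMul (Additive (AS S K)ˣ) p).index =
      ((pKer (ordHom S K) p).relIndex (ordHom S K).ker) ^ 2

/-- **EX-SHA.**  For a number field `K ∋ μ_p`, `p` odd, `p ∈ S`:
`[Sha_S(K) : p Kˣ] ≤ [Div^S(K) : div(Kˣ) + p Div^S(K)] = |Cl_S(K) / p|`.
(The extension `K(Sha^{1/p})/K` is unramified outside `S` and totally split above `S`; apply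
the reciprocity isomorphism to it.) -/
def ShaBoundSpec : Prop :=
  ∀ (p : ℕ) [hp : Fact p.Prime], p ≠ 2 →
  ∀ (S : Finset Nat.Primes) (K : Type) [Field K] [NumberField K],
    (⟨p, hp.out⟩ : Nat.Primes) ∈ S → (∃ ζ : K, IsPrimitiveRoot ζ p) →
    (pMul (Additive Kˣ) p).relIndex (shaS S K p) ≤
      ((ordHom S K).range ⊔ pMul (PrimeOut S K →₀ ℤ) p).index

/-- **EX-COUNT.**  For a number field `K ∋ μ_p`, `p` odd, `p ∈ S`: `C_S(K) / p` is finite and
`[C_S(K) : p C_S(K)] ≤ [V_S(K) : p Kˣ]`. -/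
def CountSpec : Prop :=
  ∀ (p : ℕ) [hp : Fact p.Prime], p ≠ 2 →
  ∀ (S : Finset Nat.Primes) (K : Type) [Field K] [NumberField K],
    (⟨p, hp.out⟩ : Nat.Primes) ∈ S → (∃ ζ : K, IsPrimitiveRoot ζ p) →
    (pMul (CS S K) p).index ≠ 0 ∧
    (pMul (CS S K) p).index ≤ (pMul (Additive Kˣ) p).relIndex (selmer S K p)

/-- **EX-CORE (existence theorem mod `p`, intrinsic form of `GD6`).**  Let `p` be an odd prime,
`p ∈ S`, `L/K` Galois with group `G` a `p`-group, unramified outside `S`, `μ_p ⊂ K`, and assume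
that every element of the `p`-Selmer group `V_S(K)` is a `p`-th power in `L`.  Then
`N_G C_S(L) ⊆ p · C_S(L)^G`. -/
def ExistCoreSpec : Prop :=
  ∀ (p : ℕ) [hp : Fact p.Prime], p ≠ 2 →
  ∀ (S : Finset Nat.Primes) (G K L : Type) [Group G] [Fintype G] [Field K] [NumberField K]
    [Field L] [NumberField L] [Algebra K L] [MulSemiringAction G L] [IsGaloisGroup G K L],
    (⟨p, hp.out⟩ : Nat.Primes) ∈ S → IsPGroup p G → IsUnramOut S G L →
    (∃ ζ : K, IsPrimitiveRoot ζ p) →
    (∀ x : Additive Kˣ, x ∈ selmer S K p →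
      ∃ y : L, y ^ p = algebraMap K L ((x.toMul : Kˣ) : K)) →
    ∀ c : CS S L, ∃ c₀ : CS S L,
      (∀ g : G, cRepr S G L g c₀ = c₀) ∧ ∑ g : G, cRepr S G L g c = p • c₀

end Fermat.Agent.S55.G.Exist121
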