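import Fermat.Agent.S55.G.Exist121.Sha
import Fermat.Agent.S55.G.Exist.IdxH901Pow121
import Fermat.Agent.S55.G.FIClosedH604

/-!
# S55, layer G, block EXIST: assembly of the existence theorem mod `p` (finite-level core)

Author: helper121.  Everything except the reciprocity input `PClassModuleSpec` is closed:

* `shaBound_of_classModule : PClassModuleSpec → ShaBoundSpec`  (EX-SHA);
* `count_of_classModule : PClassModuleSpec → CountSpec`  (EX-CNT);
* **`existCore_of_classModule : PClassModuleSpec → ExistCoreSpec`**  (the existence theorem mod
  `p` for a finite `p`-group `G` acting on a `p`-Kummer-saturated `L`, unramified outside `S`).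
-/

set_option autoImplicit false

noncomputable section

namespace Fermat.Agent.S55.G.Exist121

open Fermat.Agent.S55 Fermat.Agent.S55.G

/-- EX-POW, closed (helper901 + helper604/helper597). -/
theorem powIndex : PowIndexSpec :=
  Exist.H901.powIndexSpec_of FIClosedH604.placePrime

/-- EX-SHA from the class-module input. -/
theorem shaBound_of_classModule (hCM : PClassModuleSpec) : ShaBoundSpec :=
  shaBound_of Exist.H361.kummerFieldSpec (recip_of hCM) descentTop

/-- EX-CNT from the class-module input. -/
theorem count_of_classModule (hCM : PClassModuleSpec) : CountSpec :=
  count_of powIndex (shaBound_of_classModule hCM)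

/-- **The existence theorem mod `p`, finite-level core**, from the class-module input. -/
theorem existCore_of_classModule (hCM : PClassModuleSpec) : ExistCoreSpec :=
  existCore_of (recip_of hCM) descentTop (count_of_classModule hCM)

end Fermat.Agent.S55.G.Exist121
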