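import Fermat.Agent.S55.G.Exist121.Spec
import Fermat.Agent.S55.G.SesH604
import Fermat.Agent.S55.G.ClsH604

/-!
# S55, layer G, block EXIST: the existence theorem mod `p` from its leaves

Author: helper121.

* `relIndex_selmer_le` : Kummer bound `[V_S(K) : pKˣ] ≤ [G^ab : pG^ab]` when every element of
  `V_S(K)` is a `p`-th power in `L` (`L/K` Galois with group `G`, `μ_p ⊂ K`).
* `count_of` : `PowIndexSpec → ShaBoundSpec → CountSpec`.
* `existCore_of` : `RecipSpec → DescentTopSpec → CountSpec → ExistCoreSpec`.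
-/

set_option autoImplicit false

open scoped NumberField
open IsDedekindDomain

noncomputable section

namespace Fermat.Agent.S55.G.Exist121

open Fermat.Agent.S55.G

/-! ## 1. The Kummer bound -/

section Kummer

variable {G K L : Type} [Group G] [Field K] [Field L] [Algebra K L] [MulSemiringAction G L]
  [IsGaloisGroup G K L] {p : ℕ} [NeZero p]

lemma smul_algebraMap_eq (g : G) (k : K) : g • algebraMap K L k = algebraMap K L k := by
  have := IsGaloisGroup.commutes (G := G) (A := K) (B := L)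
  exact smul_algebraMap g k

/-- `p`-th roots of unity of `L` are fixed by `G` when `μ_p ⊂ K`. -/
lemma smul_eq_of_pow_eq_one {ζ : K} (hζ : IsPrimitiveRoot ζ p) (g : G) {ξ : L} (hξ : ξ ^ p = 1) :
    g • ξ = ξ := by
  have hζL : IsPrimitiveRoot (algebraMap K L ζ) p := hζ.map_of_injective (algebraMap K L).injective
  obtain ⟨i, -, rfl⟩ := hζL.eq_pow_of_pow_eq_one hξ
  rw [← map_pow]
  exact smul_algebraMap_eq g _

/-- The Kummer character `g ↦ g(y)/y` attached to `y ∈ L` with `y^p ∈ K`. -/
def kummerChar {ζ : K} (hζ : IsPrimitiveRoot ζ p) (y : L) (hy : y ≠ 0) (x : K)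
    (hyx : y ^ p = algebraMap K L x) : G →* Lˣ where
  toFun g := Units.mk0 (g • y / y) (div_ne_zero ((smul_ne_zero_iff_ne g).2 hy) hy)
  map_one' := by
    apply Units.ext
    simp [div_self hy]
  map_mul' g h := by
    apply Units.ext
    have h1 : (h • y / y) ^ p = 1 := by
      rw [div_pow, ← smul_pow', hyx, smul_algebraMap_eq, div_self]
      rw [← hyx]
      exact pow_ne_zero _ hy
    have h2 : g • (h • y / y) = h • y / y := smul_eq_of_pow_eq_one hζ g h1
    have h3 : g • (h • y) = (h • y / y) * (g • y) := by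
      have : h • y = (h • y / y) * y := by field_simp
      conv_lhs => rw [this, smul_mul', h2]
    show (g * h) • y / y = (g • y / y) * (h • y / y)
    rw [mul_smul, h3]
    field_simp

lemma kummerChar_apply {ζ : K} (hζ : IsPrimitiveRoot ζ p) (y : L) (hy : y ≠ 0) (x : K)
    (hyx : y ^ p = algebraMap K L x) (g : G) :
    ((kummerChar hζ y hy x hyx g : Lˣ) : L) = g • y / y := rfl

lemma kummerChar_pow {ζ : K} (hζ : IsPrimitiveRoot ζ p) (y : L) (hy : y ≠ 0) (x : K)
    (hyx : y ^ p = algebraMap K L x) (g : G) :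
    (kummerChar hζ y hy x hyx g) ^ p = 1 := by
  apply Units.ext
  rw [Units.val_pow_eq_pow_val, kummerChar_apply, Units.val_one, div_pow, ← smul_pow', hyx,
    smul_algebraMap_eq, div_self]
  rw [← hyx]
  exact pow_ne_zero _ hy

end Kummer

section KummerBound

variable (G K L : Type) [Group G] [Finite G] [Field K]
  [Field L] [Algebra K L] [MulSemiringAction G L] [IsGaloisGroup G K L]
  (p : ℕ) [NeZero p]

/-- **Kummer bound.**  If `μ_p ⊂ K` and every element of a subgroup `V ⊇ pKˣ` of `Kˣ` is a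
`p`-th power in `L`, then `[V : pKˣ] ≤ [G^ab : p G^ab]`. -/
theorem relIndex_le_of_sat (V : AddSubgroup (Additive Kˣ)) {ζ : K} (hζ : IsPrimitiveRoot ζ p)
    (hsat : ∀ x : Additive Kˣ, x ∈ V →
      ∃ y : L, y ^ p = algebraMap K L ((x.toMul : Kˣ) : K)) :
    (pMul (Additive Kˣ) p).relIndex V ≤ (pMul (Additive (Abelianization G)) p).index := by
  classical
  have hζL : IsPrimitiveRoot (algebraMap K L ζ) p := hζ.map_of_injective (algebraMap K L).injective
  have : HasEnoughRootsOfUnity L p := ⟨⟨_, hζL⟩, inferInstance⟩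
  -- chosen roots
  let y : V → L := fun v => (hsat v.1 v.2).choose
  have hy : ∀ v : V, y v ^ p = algebraMap K L ((v.1.toMul : Kˣ) : K) :=
    fun v => (hsat v.1 v.2).choose_spec
  have hy0 : ∀ v : V, y v ≠ 0 := by
    intro v h0
    have h1 := hy v
    rw [h0, zero_pow (NeZero.ne p)] at h1
    have h2 : ((v.1.toMul : Kˣ) : K) = 0 := (algebraMap K L).injective (by rw [← h1, map_zero])
    exact (Units.ne_zero _) h2
  let κ : V → (G →* Lˣ) := fun v => kummerChar hζ (y v) (hy0 v) _ (hy v)
  refine relIndex_le_of_kummer (M := L) V (pMul (Additive Kˣ) p) p κ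
    (fun v g => kummerChar_pow hζ _ _ _ _ g) ?_
  intro v v' h
  -- `y v / y v'` is fixed by `G`
  have h1 : ∀ g : G, g • (y v / y v') = y v / y v' := by
    intro g
    have h2 := congrArg (fun φ : G →* Lˣ => ((φ g : Lˣ) : L)) h
    simp only [κ, kummerChar_apply] at h2
    rw [smul_div₀']
    have hgv : g • y v ≠ 0 := (smul_ne_zero_iff_ne g).2 (hy0 v)
    have hgv' : g • y v' ≠ 0 := (smul_ne_zero_iff_ne g).2 (hy0 v')
    have := hy0 v
    have := hy0 v'
    field_simp at h2 ⊢
    rw [h2]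
  obtain ⟨t, ht⟩ := (IsGaloisGroup.isInvariant (G := G) (A := K) (B := L)).isInvariant _ h1
  have ht0 : t ≠ 0 := by
    rintro rfl
    rw [map_zero] at ht
    exact (div_ne_zero (hy0 v) (hy0 v')) ht.symm
  have h3 : t ^ p * ((v'.1.toMul : Kˣ) : K) = ((v.1.toMul : Kˣ) : K) := by
    apply (algebraMap K L).injective
    rw [map_mul, map_pow, ht, ← hy v, ← hy v', div_pow, div_mul_cancel₀]
    exact pow_ne_zero _ (hy0 v')
  refine ⟨Additive.ofMul (Units.mk0 t ht0), ?_⟩
  apply Additive.toMul.injective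
  apply Units.ext
  show ((Units.mk0 t ht0 ^ p : Kˣ) : K) = (((v.1.toMul : Kˣ) / (v'.1.toMul : Kˣ) : Kˣ) : K)
  rw [Units.val_pow_eq_pow_val, Units.val_mk0, Units.val_div_eq_div_val, ← h3,
    mul_div_assoc, div_self (Units.ne_zero _), mul_one]

end KummerBound

/-! ## 2. Counting -/

section Count

variable (S : Finset Nat.Primes) (K : Type) [Field K] [NumberField K] (p : ℕ)

/-- `[C_S(K) : p C_S(K)]` is the index of `Kˣ + p (J_S × Div^S)` in `J_S × Div^S`. -/
lemma index_pMul_CS :
    (pMul (CS S K) p).index = (classP (unitsDiag S K) (ordHom S K) p).index := by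
  have hsurj : Function.Surjective ((principal S K).mkQ.toAddMonoidHom) :=
    Submodule.mkQ_surjective _
  rw [index_pMul_of_surjective _ hsurj, classP, sup_comm]
  congr 2
  ext y
  rw [AddMonoidHom.mem_ker]
  show (principal S K).mkQ y = 0 ↔ _
  rw [Submodule.mkQ_apply, Submodule.Quotient.mk_eq_zero]
  rfl

/-- `[E : pE]` in the two vocabularies. -/
lemma relIndex_pKer_eq :
    (pKer (ordHom S K) p).relIndex (ordHom S K).ker =
      (nsmulAddMonoidHom (α := sUnit S K) p).range.index := by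
  rw [AddSubgroup.relIndex]
  have h : (pKer (ordHom S K) p).addSubgroupOf (ordHom S K).ker =
      (nsmulAddMonoidHom (α := (ordHom S K).ker) p).range := by
    ext x
    rw [AddSubgroup.mem_addSubgroupOf]
    constructor
    · rintro ⟨z, hz, hzx⟩
      exact ⟨⟨z, hz⟩, Subtype.ext hzx⟩
    · rintro ⟨z, rfl⟩
      exact ⟨z.1, z.2, rfl⟩
  rw [h]
  rfl

lemma relIndex_pKer_ne_zero (hp : p ≠ 0) {ζ : K} (hζ : IsPrimitiveRoot ζ p) :
    (pKer (ordHom S K) p).relIndex (ordHom S K).ker ≠ 0 := by
  rw [relIndex_pKer_eq, SesH604.index_range_nsmul_sUnit_of_primitiveRoot S K p hp hζ]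
  exact pow_ne_zero _ hp

omit [NumberField K] in
lemma div_torsionFree (hp : p ≠ 0) (i : PrimeOut S K →₀ ℤ) (h : p • i = 0) : i = 0 := by
  ext w
  have h1 := DFunLike.congr_fun h w
  simp only [Finsupp.smul_apply, Finsupp.zero_apply, nsmul_eq_mul] at h1
  rcases mul_eq_zero.1 h1 with h2 | h2
  · exact absurd (by exact_mod_cast h2) hp
  · simpa using h2

/-- **EX-COUNT from EX-POW and EX-SHA.** -/
theorem count_of (hPow : PowIndexSpec) (hSha : ShaBoundSpec) : CountSpec := by
  intro p hp hp2 S K _ _ hpS hζ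
  obtain ⟨ζ, hζ'⟩ := hζ
  have hp0 : p ≠ 0 := hp.out.ne_zero
  have hI := div_torsionFree S K p hp0
  have hfin := ClsH604.ordHom_range_index_ne_zero S K
  have hE := relIndex_pKer_ne_zero S K p hp0 hζ'
  have hJ := hPow p hp2 S K hpS ⟨ζ, hζ'⟩
  have hS := hSha p hp2 S K hpS ⟨ζ, hζ'⟩
  rw [index_pMul_CS]
  exact ⟨index_classP_ne_zero _ _ p hfin hE hJ,
    index_classP_le _ _ p hI hfin hE hJ hS⟩

end Count

/-! ## 3. The existence theorem mod `p` -/

section Exist

/-- **EX-CORE from reciprocity, descent and counting.** -/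
theorem existCore_of (hRec : RecipSpec) (hDesc : DescentTopSpec) (hCount : CountSpec) :
    ExistCoreSpec := by
  intro p hp hp2 S G K L _ _ _ _ _ _ _ _ _ hpS hG hunr hζ hsat c
  obtain ⟨ζ, hζ'⟩ := hζ
  have hSne : S.Nonempty := ⟨_, hpS⟩
  have : FaithfulSMul G L := IsGaloisGroup.faithful K
  have hfix : HasFixedRootOfUnity p G L :=
    ⟨algebraMap K L ζ, hζ'.map_of_injective (algebraMap K L).injective,
      fun g => smul_algebraMap_eq g ζ⟩
  obtain ⟨e⟩ := hRec p hp2 S G L hpS hG hunr hfix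
  obtain ⟨ι, hιinj, hιrange, -⟩ := hDesc S G K L hSne hunr
  obtain ⟨hC0, hCle⟩ := hCount p hp2 S K hpS ⟨ζ, hζ'⟩
  have hK := relIndex_le_of_sat G K L p (selmer S K p) hζ' hsat
  -- the invariants
  set A : Submodule ℤ (CS S L) := (cRepr S G L).invariants with hA
  have hmemA : ∀ c : CS S L, c ∈ A ↔ ∀ g : G, cRepr S G L g c = c :=
    fun c => Representation.mem_invariants _ c
  -- `C_S(K) ≃ A`
  let ι' : CS S K →+ A := ι.codRestrict A.toAddSubgroup
    (fun x => (hmemA _).2 ((hιrange _).2 ⟨x, rfl⟩))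
  have hι'bij : Function.Bijective ι' := by
    constructor
    · intro x y hxy
      exact hιinj (congrArg Subtype.val hxy)
    · intro a
      obtain ⟨x, hx⟩ := (hιrange a.1).1 ((hmemA _).1 a.2)
      exact ⟨x, Subtype.ext hx⟩
  let eA : CS S K ≃+ A := AddEquiv.ofBijective ι' hι'bij
  have hidx : (pMul A p).index = (pMul (CS S K) p).index := (index_pMul_congr eA p).symm
  -- the projection to `Ĥ⁰`
  let N : Submodule ℤ A := (LinearMap.range (cRepr S G L).norm).comap A.subtype
  let π : A →+ T.hat0 (CRep S G L) := N.mkQ.toAddMonoidHom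
  have hπ : Function.Surjective π := Submodule.mkQ_surjective _
  have hker := ker_le_pMul_of_equiv π hπ e p (hidx ▸ hC0)
    (hidx ▸ (hCle.trans hK))
  -- the norm of `c`
  have hnorm : (cRepr S G L).norm c ∈ A := by
    rw [hmemA]
    intro g
    have := Representation.self_norm_apply (cRepr S G L) g c
    exact this
  have hmem : (⟨(cRepr S G L).norm c, hnorm⟩ : A) ∈ π.ker := by
    rw [AddMonoidHom.mem_ker]
    show N.mkQ _ = 0
    rw [Submodule.mkQ_apply, Submodule.Quotient.mk_eq_zero]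
    exact ⟨c, rfl⟩
  obtain ⟨b, hb⟩ := hker hmem
  refine ⟨b.1, (hmemA _).1 b.2, ?_⟩
  have h1 := congrArg Subtype.val hb
  have h2 : (cRepr S G L).norm c = ∑ g : G, cRepr S G L g c := by
    simp [Representation.norm]
  rw [← h2]
  exact h1.symm

end Exist

end Fermat.Agent.S55.G.Exist121
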