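import Fermat.Agent.S55.G.Exist121.Index

/-!
# S55, layer G, block EXIST: the counting argument of the existence theorem mod `p`

Pure algebra, Mathlib only.  Author: helper121.

With the notation of `Index.lean` (`C = (J × I)/X`, `E = ker d`, `V = d⁻¹(pI)`, `Sha`):
if
* `[J : pJ] = [E : pE]²`  (local power index + `S`-unit theorem; `F ∋ μ_p` totally complex),
* `[Sha : pX] ≤ [I : dX + pI]`  (the everywhere unramified, `S`-split Kummer extension
  `F(Sha^{1/p})` has degree at most `|Cl_S / p|`: reciprocity for that extension),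
* `N ⊆ J × I` is a subgroup containing `X + p(J × I)` with `[J × I : N] = [V : pX]`
  (`N` = preimage of the norm group of `F' = F(V^{1/p})`: reciprocity isomorphism + Kummer degree),

then `N = X + p (J × I)`, i.e. the norm group of `F'` is exactly `p C(F)`.
-/

set_option autoImplicit false

namespace Fermat.Agent.S55.G.Exist121

variable {X J I : Type*} [AddCommGroup X] [AddCommGroup J] [AddCommGroup I]
variable (ι : X →+ J) (d : X →+ I) (p : ℕ)

/-- Two nested subgroups of the same finite index coincide. -/
lemma eq_of_le_of_index_le {A : Type*} [AddCommGroup A] {H K : AddSubgroup A} (hle : H ≤ K)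
    (hH : H.index ≠ 0) (hidx : H.index ≤ K.index) : H = K := by
  have h1 : H.relIndex K * K.index = H.index := AddSubgroup.relIndex_mul_index hle
  have hK : K.index ≠ 0 := fun h0 => hH (by rw [← h1, h0, mul_zero])
  have hr : H.relIndex K ≠ 0 := fun h0 => hH (by rw [← h1, h0, zero_mul])
  have hr1 : H.relIndex K = 1 := by
    by_contra hne
    have h2 : 2 ≤ H.relIndex K := by omega
    have : 2 * K.index ≤ H.index := by
      rw [← h1]; exact Nat.mul_le_mul_right _ h2
    omega
  exact le_antisymm hle (AddSubgroup.relIndex_eq_one.mp hr1)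

/-- `[C : pC] = [E : pE] * [Sha : pX]` when `[J : pJ] = [E : pE]²` (finite, nonzero). -/
theorem index_classP_eq (hI : ∀ i : I, p • i = 0 → i = 0) (hfin : d.range.index ≠ 0)
    (hE : (pKer d p).relIndex d.ker ≠ 0)
    (hJ : (pMul J p).index = (pKer d p).relIndex d.ker ^ 2) :
    (classP ι d p).index = (pKer d p).relIndex d.ker * (pMul X p).relIndex (sha ι d p) := by
  have h := index_identity ι d p hI hfin
  rw [hJ, pow_two, mul_assoc] at h
  have h' : (pKer d p).relIndex d.ker * (classP ι d p).index =
      (pKer d p).relIndex d.ker *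
        ((pKer d p).relIndex d.ker * (pMul X p).relIndex (sha ι d p)) := by
    rw [mul_comm, h]
  exact Nat.eq_of_mul_eq_mul_left (Nat.pos_of_ne_zero hE) h'

/-- `[C : pC] ≤ [V : pX]` under the numerical hypotheses. -/
theorem index_classP_le (hI : ∀ i : I, p • i = 0 → i = 0) (hfin : d.range.index ≠ 0)
    (hE : (pKer d p).relIndex d.ker ≠ 0)
    (hJ : (pMul J p).index = (pKer d p).relIndex d.ker ^ 2)
    (hSha : (pMul X p).relIndex (sha ι d p) ≤ (d.range ⊔ pMul I p).index) :
    (classP ι d p).index ≤ (pMul X p).relIndex (selV d p) := by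
  rw [index_classP_eq ι d p hI hfin hE hJ, relIndex_pMul_selV' d p hI hfin]
  exact Nat.mul_le_mul_left _ hSha

/-- `[C : pC] ≠ 0` under the numerical hypotheses (`C / pC` is finite). -/
theorem index_classP_ne_zero (hfin : d.range.index ≠ 0)
    (hE : (pKer d p).relIndex d.ker ≠ 0)
    (hJ : (pMul J p).index = (pKer d p).relIndex d.ker ^ 2) :
    (classP ι d p).index ≠ 0 := by
  rw [index_classP ι d p]
  have h1 : (d.range ⊔ pMul I p).index ≠ 0 := by
    intro h0
    have := AddSubgroup.relIndex_mul_index (le_sup_left : d.range ≤ d.range ⊔ pMul I p)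
    rw [h0, mul_zero] at this
    exact hfin this.symm
  have h2 : (pMul J p ⊔ (selV d p).map ι).index ≠ 0 := by
    intro h0
    have := AddSubgroup.relIndex_mul_index
      (le_sup_left : pMul J p ≤ pMul J p ⊔ (selV d p).map ι)
    rw [h0, mul_zero, hJ] at this
    exact (pow_ne_zero 2 hE) this.symm
  exact Nat.mul_ne_zero h1 h2

/-- **Counting form of the existence theorem mod `p`.**  A subgroup `N ⊇ X + p(J × I)` of index
`[V : pX]` is equal to `X + p(J × I)`. -/
theorem eq_classP_of_index (hI : ∀ i : I, p • i = 0 → i = 0) (hfin : d.range.index ≠ 0)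
    (hE : (pKer d p).relIndex d.ker ≠ 0)
    (hJ : (pMul J p).index = (pKer d p).relIndex d.ker ^ 2)
    (hSha : (pMul X p).relIndex (sha ι d p) ≤ (d.range ⊔ pMul I p).index)
    (N : AddSubgroup (J × I)) (hN : classP ι d p ≤ N)
    (hNidx : N.index = (pMul X p).relIndex (selV d p)) :
    classP ι d p = N :=
  eq_of_le_of_index_le hN (index_classP_ne_zero ι d p hfin hE hJ)
    (hNidx ▸ index_classP_le ι d p hI hfin hE hJ hSha)

/-- Variant: it suffices to know `[J × I : N] ≥ [V : pX]`. -/
theorem eq_classP_of_le_index (hI : ∀ i : I, p • i = 0 → i = 0) (hfin : d.range.index ≠ 0)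
    (hE : (pKer d p).relIndex d.ker ≠ 0)
    (hJ : (pMul J p).index = (pKer d p).relIndex d.ker ^ 2)
    (hSha : (pMul X p).relIndex (sha ι d p) ≤ (d.range ⊔ pMul I p).index)
    (N : AddSubgroup (J × I)) (hN : classP ι d p ≤ N)
    (hNidx : (pMul X p).relIndex (selV d p) ≤ N.index) :
    classP ι d p = N :=
  eq_of_le_of_index_le hN (index_classP_ne_zero ι d p hfin hE hJ)
    ((index_classP_le ι d p hI hfin hE hJ hSha).trans hNidx)

end Fermat.Agent.S55.G.Exist121
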