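import Fermat.Agent.S55.G.Exist121.Spec
import Fermat.Agent.S55.G.DescH773.Main

/-!
# S55, layer G, block EXIST: leaf EX-DESC (descent to the base field)

Author: helper121.  `descentTop : DescentTopSpec`, unconditional, from helper773's descent library
(`Fermat.Agent.S55.G.DescH773`: `cBase`, `cBase_injective`, `mem_range_cBase_iff`,
`eAt_eq_one_of_inertia`).
-/

set_option autoImplicit false

open scoped NumberField
open IsDedekindDomain

noncomputable section

namespace Fermat.Agent.S55.G.Exist121

open Fermat.Agent.S55.G Fermat.Agent.S55.G.DescH773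

/-- `IsUnramOut` gives ramification index one at the primes outside `S`. -/
lemma eAt_eq_one_of_isUnramOut (S : Finset Nat.Primes) (G K L : Type) [Group G] [Finite G]
    [Field K] [NumberField K] [Field L] [NumberField L] [Algebra K L] [MulSemiringAction G L]
    [IsGaloisGroup G K L] (hur : IsUnramOut S G L) (w : PrimeOut S L) : eAt K w.1 = 1 := by
  have : FaithfulSMul G L := IsGaloisGroup.faithful K
  refine eAt_eq_one_of_inertia G K w.1 fun g hg => ?_
  have h1 : ∀ x : L, g • x = x := hur w.1 w.2 g hg
  exact eq_of_smul_eq_smul (α := L) fun x => by rw [h1 x, one_smul]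

/-- **EX-DESC.** -/
theorem descentTop : DescentTopSpec := by
  intro S G K L _ _ _ _ _ _ _ _ _ hS hur
  have he : ∀ w : PrimeOut S L, eAt K w.1 = 1 := eAt_eq_one_of_isUnramOut S G K L hur
  refine ⟨cBase S K L, cBase_injective S G K L hS, fun c => ?_, fun y => ?_⟩
  · have := mem_range_cBase_iff S G K L hS he c
    constructor
    · intro h
      obtain ⟨c', hc'⟩ := this.2 h
      exact ⟨c', hc'⟩
    · rintro ⟨c', rfl⟩ g
      exact cRepr_cBase S G K L g c'
  · change cBase S K L (Submodule.Quotient.mk (y, 0)) = Submodule.Quotient.mk (jMap S K L y, 0)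
    rw [cBase_mk]
    congr 1
    exact Prod.ext rfl (map_zero (divBase S K L))

end Fermat.Agent.S55.G.Exist121
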