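import Fermat.Agent.S55.H893.Kummer
import Fermat.Agent.S55.Bridge.InertiaConj

/-!
# S55, layer G, block EXIST: the Kummer level `F₁ = F(V(F)^{1/p})`  (Prelude terms)

Author: helper121.  For a level `F ⊂ ℚ̄` and a finite set of primes `S`:

* `IsSelmerElt S p F x` : `x ∈ Fˣ` and at every place `A` of `ℚ̄` over a prime `q ∉ S` the element
  `x` is a unit times a `p`-th power of an element of `F` (i.e. `p ∣ v(x)` for all primes `v` of
  `F` outside `S`); these `x` form the group `V(F)`, and `V(F)/Fˣᵖ` is the Selmer group `F(S,p)`.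
* `kummerLevel S p F = F(β : β ^ p ∈ V(F))`.

Results of this file (no finiteness yet, see `FieldFinite.lean`):
* `inertia_le_fixingSubgroup_kummerLevel` : inertia outside `S` acts trivially on `F₁`
  (if `F` is unramified outside `S` and the prime factors of `p` lie in `S`);
* `normal_kummerLevel` : `F₁/ℚ` is normal if `F/ℚ` is.
-/

set_option autoImplicit false

namespace Fermat.Agent.S55.G.Exist121

open IntermediateField Fermat.Agent.S55.Bridge
open scoped Pointwise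

variable (S : Finset Nat.Primes) (p : ℕ) (F : IntermediateField ℚ (AlgebraicClosure ℚ))

/-- `x ∈ V(F)`: a nonzero element of `F` which, at every place of `ℚ̄` outside `S`, is a unit
times the `p`-th power of an element of `F`. -/
def IsSelmerElt (x : AlgebraicClosure ℚ) : Prop :=
  x ∈ F ∧ x ≠ 0 ∧ ∀ q : Nat.Primes, q ∉ S → ∀ A : ValuationSubring (AlgebraicClosure ℚ),
    A.LiesOverPrime (q : ℕ) → ∃ t ∈ F, t ≠ 0 ∧ x / t ^ p ∈ A ∧ t ^ p / x ∈ A

/-- The Kummer level `F₁ = F(β : β ^ p ∈ V(F))`. -/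
noncomputable def kummerLevel : IntermediateField ℚ (AlgebraicClosure ℚ) :=
  F ⊔ adjoin ℚ {β | IsSelmerElt S p F (β ^ p)}

variable {S p F}

lemma isSelmerElt_one : IsSelmerElt S p F 1 :=
  ⟨F.one_mem, one_ne_zero, fun _ _ A _ => ⟨1, F.one_mem, one_ne_zero, by simp [A.one_mem],
    by simp [A.one_mem]⟩⟩

lemma IsSelmerElt.mul {x y : AlgebraicClosure ℚ} (hx : IsSelmerElt S p F x)
    (hy : IsSelmerElt S p F y) : IsSelmerElt S p F (x * y) := by
  refine ⟨F.mul_mem hx.1 hy.1, mul_ne_zero hx.2.1 hy.2.1, fun q hq A hA => ?_⟩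
  obtain ⟨t, ht, ht0, h1, h2⟩ := hx.2.2 q hq A hA
  obtain ⟨s, hs, hs0, h3, h4⟩ := hy.2.2 q hq A hA
  refine ⟨t * s, F.mul_mem ht hs, mul_ne_zero ht0 hs0, ?_, ?_⟩
  · have : x * y / (t * s) ^ p = (x / t ^ p) * (y / s ^ p) := by
      rw [mul_pow]; field_simp
    rw [this]; exact A.mul_mem _ _ h1 h3
  · have : (t * s) ^ p / (x * y) = (t ^ p / x) * (s ^ p / y) := by
      rw [mul_pow]; field_simp
    rw [this]; exact A.mul_mem _ _ h2 h4

lemma IsSelmerElt.inv {x : AlgebraicClosure ℚ} (hx : IsSelmerElt S p F x) :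
    IsSelmerElt S p F x⁻¹ := by
  refine ⟨F.inv_mem hx.1, inv_ne_zero hx.2.1, fun q hq A hA => ?_⟩
  obtain ⟨t, ht, ht0, h1, h2⟩ := hx.2.2 q hq A hA
  refine ⟨t⁻¹, F.inv_mem ht, inv_ne_zero ht0, ?_, ?_⟩
  · have : x⁻¹ / t⁻¹ ^ p = t ^ p / x := by
      rw [inv_pow]; field_simp
    rw [this]; exact h2
  · have : t⁻¹ ^ p / x⁻¹ = x / t ^ p := by
      rw [inv_pow]; field_simp
    rw [this]; exact h1

lemma isSelmerElt_pow {y : AlgebraicClosure ℚ} (hy : y ∈ F) (hy0 : y ≠ 0) :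
    IsSelmerElt S p F (y ^ p) :=
  ⟨pow_mem hy p, pow_ne_zero p hy0, fun _ _ A _ =>
    ⟨y, hy, hy0, by rw [div_self (pow_ne_zero p hy0)]; exact A.one_mem,
      by rw [div_self (pow_ne_zero p hy0)]; exact A.one_mem⟩⟩

lemma le_kummerLevel : F ≤ kummerLevel S p F := le_sup_left

lemma mem_kummerLevel_of_pow {β : AlgebraicClosure ℚ} (hβ : IsSelmerElt S p F (β ^ p)) :
    β ∈ kummerLevel S p F :=
  (le_sup_right : adjoin ℚ {β | IsSelmerElt S p F (β ^ p)} ≤ kummerLevel S p F)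
    (subset_adjoin ℚ _ hβ)

/-- The valuation form of the local condition: a `p`-th root `β` of `x ∈ V(F)` has the valuation
of an element of `F` at every place outside `S`. -/
lemma IsSelmerElt.exists_valuation_eq (hp : p ≠ 0) {β : AlgebraicClosure ℚ}
    (hβ : IsSelmerElt S p F (β ^ p)) {q : Nat.Primes} (hq : q ∉ S)
    {A : ValuationSubring (AlgebraicClosure ℚ)} (hA : A.LiesOverPrime (q : ℕ)) :
    ∃ t ∈ F, A.valuation β = A.valuation t := by
  obtain ⟨t, ht, ht0, h1, h2⟩ := hβ.2.2 q hq A hA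
  refine ⟨t, ht, ?_⟩
  have hβ0 : β ≠ 0 := fun h => hβ.2.1 (by rw [h, zero_pow hp])
  have e1 : A.valuation (β / t) ^ p ≤ 1 := by
    rw [← map_pow, div_pow]; exact (A.valuation_le_one_iff _).2 h1
  have e2 : A.valuation (t / β) ^ p ≤ 1 := by
    rw [← map_pow, div_pow]; exact (A.valuation_le_one_iff _).2 h2
  have e3 : A.valuation (β / t) ≤ 1 := by
    by_contra h
    exact absurd e1 (not_le.2 (one_lt_pow₀ (not_le.1 h) hp))
  have e4 : A.valuation (t / β) ≤ 1 := by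
    by_contra h
    exact absurd e2 (not_le.2 (one_lt_pow₀ (not_le.1 h) hp))
  have hβv : A.valuation β ≠ 0 := (map_ne_zero _).2 hβ0
  have htv : A.valuation t ≠ 0 := (map_ne_zero _).2 ht0
  rw [map_div₀] at e3 e4
  have e5 : A.valuation β ≤ A.valuation t := by
    have := (div_le_one₀ (zero_lt_iff.2 htv)).1 e3
    exact this
  have e6 : A.valuation t ≤ A.valuation β := by
    have := (div_le_one₀ (zero_lt_iff.2 hβv)).1 e4
    exact this
  exact le_antisymm e5 e6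

/-- Inertia outside `S` acts trivially on the Kummer level. -/
theorem inertia_le_fixingSubgroup_kummerLevel (hp : p ≠ 0)
    (hpS : ∀ ℓ : Nat.Primes, (ℓ : ℕ) ∣ p → ℓ ∈ S)
    (hF : ∀ q : Nat.Primes, q ∉ S → ∀ A : ValuationSubring (AlgebraicClosure ℚ),
      A.LiesOverPrime (q : ℕ) → A.inertiaSubgroupIn ℚ ≤ F.fixingSubgroup)
    {q : Nat.Primes} (hq : q ∉ S) {A : ValuationSubring (AlgebraicClosure ℚ)}
    (hA : A.LiesOverPrime (q : ℕ)) :
    A.inertiaSubgroupIn ℚ ≤ (kummerLevel S p F).fixingSubgroup := by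
  intro σ hσ
  have hσF : σ ∈ F.fixingSubgroup := hF q hq A hA hσ
  have hfixF : ∀ x ∈ F, σ x = x := fun x hx =>
    (IntermediateField.mem_fixingSubgroup_iff F σ).1 hσF x hx
  rw [kummerLevel, IntermediateField.fixingSubgroup_sup]
  refine ⟨hσF, ?_⟩
  show σ ∈ (adjoin ℚ {β | IsSelmerElt S p F (β ^ p)}).fixingSubgroup
  rw [IntermediateField.mem_fixingSubgroup_iff]
  have hle : adjoin ℚ {β | IsSelmerElt S p F (β ^ p)} ≤
      IntermediateField.fixedField (Subgroup.zpowers σ) := by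
    rw [adjoin_le_iff]
    intro β hβ
    have hβ' : IsSelmerElt S p F (β ^ p) := hβ
    obtain ⟨t, htF, hv⟩ := hβ'.exists_valuation_eq hp hq hA
    have hσβ : σ β = β :=
      Fermat.Agent.S55.H893.kummer_fixed_of_mem_inertia hp
        (Fermat.Agent.S55.H893.val_natCast_eq_one_of_primeFactors_mem hpS hq hA) hσ
        (hfixF _ hβ'.1) (hfixF _ htF) hv
    rintro ⟨τ, hτ⟩
    obtain ⟨k, rfl⟩ := Subgroup.mem_zpowers_iff.1 hτ
    show (σ ^ k) • β = β
    have hstab : σ ∈ MulAction.stabilizer (AlgebraicClosure ℚ ≃ₐ[ℚ] AlgebraicClosure ℚ) β :=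
      MulAction.mem_stabilizer_iff.2 hσβ
    exact MulAction.mem_stabilizer_iff.1 (Subgroup.zpow_mem _ hstab k)
  intro x hx
  exact (hle hx) ⟨σ, Subgroup.mem_zpowers σ⟩

/-- `V(F)` is stable under `G_ℚ` when `F` is. -/
lemma IsSelmerElt.map (hFn : ∀ σ : AlgebraicClosure ℚ ≃ₐ[ℚ] AlgebraicClosure ℚ, ∀ x ∈ F, σ x ∈ F)
    (σ : AlgebraicClosure ℚ ≃ₐ[ℚ] AlgebraicClosure ℚ) {x : AlgebraicClosure ℚ}
    (hx : IsSelmerElt S p F x) : IsSelmerElt S p F (σ x) := by
  refine ⟨hFn σ x hx.1, (map_ne_zero _).2 hx.2.1, fun q hq A hA => ?_⟩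
  -- use the place `σ⁻¹ • A`
  have hA' : (σ⁻¹ • A).LiesOverPrime (q : ℕ) := liesOverPrime_smul A σ⁻¹ q hA
  obtain ⟨t, ht, ht0, h1, h2⟩ := hx.2.2 q hq (σ⁻¹ • A) hA'
  rw [mem_smul_valuationSubring_iff, inv_inv] at h1 h2
  refine ⟨σ t, hFn σ t ht, (map_ne_zero _).2 ht0, ?_, ?_⟩
  · have : σ x / σ t ^ p = σ (x / t ^ p) := by rw [map_div₀, map_pow]
    rw [this]; exact h1
  · have : σ t ^ p / σ x = σ (t ^ p / x) := by rw [map_div₀, map_pow]
    rw [this]; exact h2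

/-- The Kummer level is stable under `G_ℚ` when `F` is. -/
theorem map_mem_kummerLevel
    (hFn : ∀ σ : AlgebraicClosure ℚ ≃ₐ[ℚ] AlgebraicClosure ℚ, ∀ x ∈ F, σ x ∈ F)
    (σ : AlgebraicClosure ℚ ≃ₐ[ℚ] AlgebraicClosure ℚ) {x : AlgebraicClosure ℚ}
    (hx : x ∈ kummerLevel S p F) : σ x ∈ kummerLevel S p F := by
  have hle : kummerLevel S p F ≤ (kummerLevel S p F).comap (σ : AlgebraicClosure ℚ →ₐ[ℚ] _) := by
    rw [kummerLevel, sup_le_iff]
    constructor
    · intro y hy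
      exact le_kummerLevel (hFn σ y hy)
    · rw [adjoin_le_iff]
      intro β hβ
      have hβ' : IsSelmerElt S p F (β ^ p) := hβ
      show σ β ∈ kummerLevel S p F
      apply mem_kummerLevel_of_pow
      rw [← map_pow]
      exact hβ'.map hFn σ
  exact hle hx

/-- `F₁/ℚ` is normal when `F/ℚ` is. -/
theorem normal_fixingSubgroup_kummerLevel
    (hFn : ∀ σ : AlgebraicClosure ℚ ≃ₐ[ℚ] AlgebraicClosure ℚ, ∀ x ∈ F, σ x ∈ F) :
    (kummerLevel S p F).fixingSubgroup.Normal := by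
  refine ⟨fun g hg σ => ?_⟩
  rw [IntermediateField.mem_fixingSubgroup_iff] at hg ⊢
  intro x hx
  have h1 : σ⁻¹ x ∈ kummerLevel S p F := map_mem_kummerLevel hFn σ⁻¹ hx
  have h2 := hg _ h1
  show σ (g (σ⁻¹ x)) = x
  rw [h2]
  exact σ.apply_symm_apply x

end Fermat.Agent.S55.G.Exist121
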