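import Fermat.Agent.S55.G.Exist121.Field
import Fermat.Agent.S55.H901.SelmerFinite

/-!
# S55, layer G, block EXIST: the Kummer level is a level (finite, unramified outside `S`)

Author: helper121.  Main results:

* `finiteDimensional_kummerLevel` : `F₁ = F(V(F)^{1/p})` is finite over `ℚ` (via finiteness of the
  Selmer group `F(S, p)`, helper901);
* `isUnramifiedOutside_kummerLevel` : `F₁` is unramified outside `S`.

Bridge used here (and of independent interest): `exists_valuationSubring_over` (every prime `v` of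
`𝓞 F` is the centre of a valuation subring of `ℚ̄`) and `valuation_eq_one_of_mem` (a unit at such
a valuation subring has `v`-adic valuation `1`).
-/

set_option autoImplicit false
set_option linter.style.haveILetI false

namespace Fermat.Agent.S55.G.Exist121

open IntermediateField IsDedekindDomain NumberField

section Bridge

variable (F : IntermediateField ℚ (AlgebraicClosure ℚ))

/-- The embedding `𝓞 F → ℚ̄`. -/
noncomputable def toQbar : 𝓞 F →+* AlgebraicClosure ℚ :=
  (algebraMap F (AlgebraicClosure ℚ)).comp (algebraMap (𝓞 F) F)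

lemma toQbar_apply (r : 𝓞 F) : toQbar F r = ((r : F) : AlgebraicClosure ℚ) := rfl

lemma toQbar_injective : Function.Injective (toQbar F) :=
  (algebraMap F (AlgebraicClosure ℚ)).injective.comp RingOfIntegers.coe_injective

variable {F}

/-- Every prime `v` of `𝓞 F` is the centre of a valuation subring of `ℚ̄`. -/
theorem exists_valuationSubring_over [NumberField F] (v : HeightOneSpectrum (𝓞 F)) :
    ∃ A : ValuationSubring (AlgebraicClosure ℚ), ∀ r : 𝓞 F,
      toQbar F r ∈ A ∧ (r ∈ v.asIdeal ↔ toQbar F r ∈ A.nonunits) := by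
  let A₀ : Subring (AlgebraicClosure ℚ) := (toQbar F).range
  let I : Ideal A₀ := v.asIdeal.map (toQbar F).rangeRestrict
  have hI : I ≠ ⊤ := by
    intro h
    have h1 : (1 : A₀) ∈ I := by rw [h]; trivial
    rw [Ideal.mem_map_iff_of_surjective _ (toQbar F).rangeRestrict_surjective] at h1
    obtain ⟨r, hr, hr1⟩ := h1
    have h2 : toQbar F r = 1 := congrArg Subtype.val hr1
    have h3 : r = 1 := toQbar_injective F (by rw [h2, map_one])
    exact v.isPrime.ne_top ((Ideal.eq_top_iff_one _).2 (h3 ▸ hr))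
  obtain ⟨A, hA₀, hA⟩ := Ideal.image_subset_nonunits_valuationSubring I hI
  have hmem : ∀ r : 𝓞 F, toQbar F r ∈ A := fun r => hA₀ ⟨r, rfl⟩
  have hnon : ∀ r ∈ v.asIdeal, toQbar F r ∈ A.nonunits := fun r hr =>
    hA ⟨(toQbar F).rangeRestrict r, Ideal.mem_map_of_mem _ hr, rfl⟩
  refine ⟨A, fun r => ⟨hmem r, ⟨hnon r, fun hr => ?_⟩⟩⟩
  by_contra hrv
  -- `v` is maximal: `a * r + m = 1` with `m ∈ v`
  have hmax : v.asIdeal.IsMaximal := v.isMaximal
  obtain ⟨a, m, hm, ham⟩ := hmax.exists_inv hrv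
  have h1 : toQbar F a * toQbar F r + toQbar F m = 1 := by
    rw [← map_mul, ← map_add, ham, map_one]
  have hv1 : A.valuation (toQbar F a * toQbar F r) < 1 := by
    rw [map_mul]
    calc A.valuation (toQbar F a) * A.valuation (toQbar F r)
        ≤ 1 * A.valuation (toQbar F r) :=
          mul_le_mul_left ((A.valuation_le_one_iff _).2 (hmem a)) _
      _ = A.valuation (toQbar F r) := one_mul _
      _ < 1 := (A.mem_nonunits_iff).1 hr
  have hv2 : A.valuation (toQbar F m) < 1 := (A.mem_nonunits_iff).1 (hnon m hm)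
  have hv3 : A.valuation (toQbar F a * toQbar F r + toQbar F m) < 1 :=
    lt_of_le_of_lt (A.valuation.map_add _ _) (max_lt hv1 hv2)
  rw [h1, map_one] at hv3
  exact lt_irrefl _ hv3

/-- If `u ∈ Fˣ` is a unit of a valuation subring of `ℚ̄` centred at `v`, then `v(u) = 1`. -/
theorem valuation_eq_one_of_mem [NumberField F] (v : HeightOneSpectrum (𝓞 F))
    (A : ValuationSubring (AlgebraicClosure ℚ))
    (hA : ∀ r : 𝓞 F, toQbar F r ∈ A ∧ (r ∈ v.asIdeal ↔ toQbar F r ∈ A.nonunits))
    (u : F) (hu : A.valuation (u : AlgebraicClosure ℚ) = 1) :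
    v.valuation F u = 1 := by
  have hval : ∀ d : 𝓞 F, d ∉ v.asIdeal → A.valuation (toQbar F d) = 1 := by
    intro d hd
    have h1 : A.valuation (toQbar F d) ≤ 1 := (A.valuation_le_one_iff _).2 (hA d).1
    have h2 : ¬ A.valuation (toQbar F d) < 1 := fun h =>
      hd ((hA d).2.2 ((A.mem_nonunits_iff).2 h))
    exact le_antisymm h1 (not_lt.1 h2)
  have hmem : ∀ n : 𝓞 F, A.valuation (toQbar F n) = 1 → n ∉ v.asIdeal := by
    intro n hn hnv
    have := (A.mem_nonunits_iff).1 ((hA n).2.1 hnv)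
    rw [hn] at this
    exact lt_irrefl _ this
  have hv1 : ∀ n : 𝓞 F, n ∉ v.asIdeal → v.valuation F (algebraMap (𝓞 F) F n) = 1 := by
    intro n hn
    rw [HeightOneSpectrum.valuation_of_algebraMap]
    exact (v.intValuation_eq_one_iff_mem_primeCompl n).2 hn
  obtain ⟨n, d, h | h⟩ := v.exists_primeCompl_mul_eq_or_mul_eq (K := F) u
  · -- `u * d = n`
    have h' : (u : AlgebraicClosure ℚ) * toQbar F d = toQbar F n := by
      have := congrArg (algebraMap F (AlgebraicClosure ℚ)) h
      rw [map_mul] at this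
      exact this
    have hn : A.valuation (toQbar F n) = 1 := by
      rw [← h', map_mul, hu, hval d d.2, one_mul]
    have h3 := congrArg (v.valuation F) h
    rw [map_mul, hv1 d d.2, mul_one, hv1 n (hmem n hn)] at h3
    exact h3
  · -- `u * n = d`
    have h' : (u : AlgebraicClosure ℚ) * toQbar F n = toQbar F d := by
      have := congrArg (algebraMap F (AlgebraicClosure ℚ)) h
      rw [map_mul] at this
      exact this
    have hn : A.valuation (toQbar F n) = 1 := by
      have := congrArg A.valuation h'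
      rw [map_mul, hu, one_mul, hval d d.2] at this
      exact this
    have h3 := congrArg (v.valuation F) h
    rw [map_mul, hv1 d d.2, hv1 n (hmem n hn), mul_one] at h3
    exact h3

/-- Every prime `v` of `𝓞 F` contains a rational prime. -/
theorem exists_prime_mem [NumberField F] (v : HeightOneSpectrum (𝓞 F)) :
    ∃ q : Nat.Primes, ((q : ℕ) : 𝓞 F) ∈ v.asIdeal := by
  have hN : ((Ideal.absNorm v.asIdeal : ℕ) : 𝓞 F) ∈ v.asIdeal := Ideal.absNorm_mem _
  have hN1 : Ideal.absNorm v.asIdeal ≠ 1 := fun h =>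
    v.isPrime.ne_top (Ideal.absNorm_eq_one_iff.1 h)
  have hN0 : Ideal.absNorm v.asIdeal ≠ 0 := by
    rw [Ne, Ideal.absNorm_eq_zero_iff]
    exact v.ne_bot
  -- strong induction: a natural number `≥ 2` in `v` has a prime factor in `v`
  have key : ∀ n : ℕ, 2 ≤ n → ((n : ℕ) : 𝓞 F) ∈ v.asIdeal →
      ∃ q : Nat.Primes, ((q : ℕ) : 𝓞 F) ∈ v.asIdeal := by
    intro n
    induction n using Nat.strong_induction_on with
    | _ n ih =>
      intro hn2 hn
      have hn1 : n ≠ 1 := by omega
      have hq := Nat.minFac_prime hn1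
      by_cases hqv : ((Nat.minFac n : ℕ) : 𝓞 F) ∈ v.asIdeal
      · exact ⟨⟨_, hq⟩, hqv⟩
      · obtain ⟨m, hm⟩ := Nat.minFac_dvd n
        have hm' : ((Nat.minFac n : ℕ) : 𝓞 F) * ((m : ℕ) : 𝓞 F) ∈ v.asIdeal := by
          rw [← Nat.cast_mul, ← hm]; exact hn
        have hmv : ((m : ℕ) : 𝓞 F) ∈ v.asIdeal :=
          (v.isPrime.mem_or_mem hm').resolve_left hqv
        have hm0 : m ≠ 0 := by
          rintro rfl
          rw [mul_zero] at hm
          omega
        have hm1 : m ≠ 1 := by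
          rintro rfl
          rw [mul_one] at hm
          exact hqv (by rw [← hm]; exact hn)
        have hlt : m < n := by
          have h2 := hq.two_le
          calc m = 1 * m := (one_mul m).symm
            _ < Nat.minFac n * m := Nat.mul_lt_mul_of_pos_right (by omega) (by omega)
            _ = n := hm.symm
        exact ih m hlt (by omega) hmv
  exact key _ (by omega) hN

end Bridge

section Selmer

variable (S : Finset Nat.Primes) (p : ℕ) (F : IntermediateField ℚ (AlgebraicClosure ℚ))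

/-- The primes of `𝓞 F` over `S`. -/
def primesOver [NumberField F] : Set (HeightOneSpectrum (𝓞 F)) :=
  {v | ∃ q ∈ S, ((q : ℕ) : 𝓞 F) ∈ v.asIdeal}

lemma primesOver_finite [NumberField F] : (primesOver S F).Finite := by
  have h : primesOver S F =
      ⋃ q ∈ S, {v : HeightOneSpectrum (𝓞 F) | ((q : ℕ) : 𝓞 F) ∈ v.asIdeal} := by
    ext v
    simp [primesOver]
  rw [h]
  refine Set.Finite.biUnion S.finite_toSet (fun q _ => ?_)
  have hq0 : (Ideal.span {((q : ℕ) : 𝓞 F)}) ≠ 0 := by
    rw [Ne, Ideal.zero_eq_bot, Ideal.span_singleton_eq_bot]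
    exact Nat.cast_ne_zero.2 q.2.ne_zero
  refine (Ideal.finite_factors hq0).subset (fun v hv => ?_)
  show v.asIdeal ∣ Ideal.span {((q : ℕ) : 𝓞 F)}
  rw [Ideal.dvd_iff_le, Ideal.span_singleton_le_iff_mem]
  exact hv

variable {S p F}

/-- For `x ∈ V(F)` and a prime `v` of `F` outside `S`, `p ∣ v(x)`. -/
theorem dvd_valuationOfNeZero_of_isSelmerElt [NumberField F] {x : Fˣ}
    (hx : IsSelmerElt S p F ((x : F) : AlgebraicClosure ℚ))
    (v : HeightOneSpectrum (𝓞 F)) (hv : v ∉ primesOver S F) :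
    (p : ℤ) ∣ Multiplicative.toAdd (v.valuationOfNeZero x) := by
  obtain ⟨q, hq⟩ := exists_prime_mem v
  have hqS : q ∉ S := fun h => hv ⟨q, h, hq⟩
  obtain ⟨A, hA⟩ := exists_valuationSubring_over v
  have hAq : A.LiesOverPrime (q : ℕ) := by
    have h := (hA ((q : ℕ) : 𝓞 F)).2.1 hq
    have e : toQbar F ((q : ℕ) : 𝓞 F) = ((q : ℕ) : AlgebraicClosure ℚ) := map_natCast _ _
    rw [e] at h
    exact h
  obtain ⟨t, ht, ht0, h1, h2⟩ := hx.2.2 q hqS A hAq
  have htF0 : (⟨t, ht⟩ : F) ≠ 0 := fun h => ht0 (congrArg Subtype.val h)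
  have hxF0 : (x : F) ≠ 0 := x.ne_zero
  have hu : A.valuation ((((x : F) / (⟨t, ht⟩ : F) ^ p : F)) : AlgebraicClosure ℚ) = 1 := by
    have e : ((((x : F) / (⟨t, ht⟩ : F) ^ p : F)) : AlgebraicClosure ℚ) =
        ((x : F) : AlgebraicClosure ℚ) / t ^ p := by push_cast; rfl
    rw [e]
    refine le_antisymm ((A.valuation_le_one_iff _).2 h1) ?_
    have h3 : A.valuation (t ^ p / ((x : F) : AlgebraicClosure ℚ)) ≤ 1 :=
      (A.valuation_le_one_iff _).2 h2
    have hx0 : ((x : F) : AlgebraicClosure ℚ) ≠ 0 := hx.2.1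
    have e2 : t ^ p / ((x : F) : AlgebraicClosure ℚ) =
        (((x : F) : AlgebraicClosure ℚ) / t ^ p)⁻¹ := by
      rw [inv_div]
    rw [e2, map_inv₀] at h3
    have hne : A.valuation (((x : F) : AlgebraicClosure ℚ) / t ^ p) ≠ 0 :=
      (map_ne_zero _).2 (div_ne_zero hx0 (pow_ne_zero p ht0))
    exact (inv_le_one₀ (zero_lt_iff.2 hne)).1 h3
  have hvu := valuation_eq_one_of_mem v A hA _ hu
  have hval : v.valuation F (x : F) = (v.valuation F (⟨t, ht⟩ : F)) ^ p := by
    have e : (x : F) = ((x : F) / (⟨t, ht⟩ : F) ^ p) * (⟨t, ht⟩ : F) ^ p := by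
      field_simp
    rw [e, map_mul, hvu, one_mul, map_pow]
  have h3 : v.valuationOfNeZero x = (v.valuationOfNeZero (Units.mk0 _ htF0)) ^ p := by
    rw [← WithZero.coe_inj, WithZero.coe_pow, HeightOneSpectrum.valuationOfNeZero_eq,
      HeightOneSpectrum.valuationOfNeZero_eq]
    exact hval
  rw [h3, toAdd_pow, nsmul_eq_mul]
  exact dvd_mul_right _ _

/-- The class of `x ∈ V(F)` lies in the Selmer group `F(S_F, p)`. -/
theorem mk_mem_selmerGroup [NumberField F] {x : Fˣ}
    (hx : IsSelmerElt S p F ((x : F) : AlgebraicClosure ℚ)) :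
    (QuotientGroup.mk x : Fˣ ⧸ (powMonoidHom p : Fˣ →* Fˣ).range) ∈
      selmerGroup (R := 𝓞 F) (K := F) (S := primesOver S F) (n := p) := by
  intro v hv
  exact (Fermat.Agent.S55.H901.valuationOfNeZeroMod_mk_eq_one_iff v p x).2
    (dvd_valuationOfNeZero_of_isSelmerElt hx v hv)

variable (S p F)

/-- **The Kummer level is finite over `ℚ`.** -/
theorem finiteDimensional_kummerLevel (hp : 0 < p) [FiniteDimensional ℚ F] :
    FiniteDimensional ℚ (kummerLevel S p F) := by
  classical
  haveI : NumberField F := { to_charZero := inferInstance, to_finiteDimensional := inferInstance }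
  haveI : Finite (selmerGroup (R := 𝓞 F) (K := F) (S := primesOver S F) (n := p)) :=
    Fermat.Agent.S55.H901.selmerGroup_finite (primesOver_finite S F) hp
  -- a `p`-th root of a representative of every class
  have hroot : ∀ c : Fˣ ⧸ (powMonoidHom p : Fˣ →* Fˣ).range, ∃ β : AlgebraicClosure ℚ,
      (∃ x : Fˣ, IsSelmerElt S p F ((x : F) : AlgebraicClosure ℚ) ∧ QuotientGroup.mk x = c) →
      ∃ x : Fˣ, QuotientGroup.mk x = c ∧ β ^ p = ((x : F) : AlgebraicClosure ℚ) := by
    intro c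
    by_cases h : ∃ x : Fˣ, IsSelmerElt S p F ((x : F) : AlgebraicClosure ℚ) ∧
        QuotientGroup.mk x = c
    · obtain ⟨x, -, hc⟩ := h
      obtain ⟨β, hβ⟩ := IsAlgClosed.exists_pow_nat_eq ((x : F) : AlgebraicClosure ℚ) hp
      exact ⟨β, fun _ => ⟨x, hc, hβ⟩⟩
    · exact ⟨0, fun h' => absurd h' h⟩
  choose g hg using hroot
  let T : Set (AlgebraicClosure ℚ) :=
    g '' (selmerGroup (R := 𝓞 F) (K := F) (S := primesOver S F) (n := p) :
      Set (Fˣ ⧸ (powMonoidHom p : Fˣ →* Fˣ).range)) ∪ {ω | ω ^ p = 1}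
  have hTfin : T.Finite := by
    refine Set.Finite.union ((Set.toFinite _).image g) ?_
    refine (Polynomial.nthRoots p (1 : AlgebraicClosure ℚ)).toFinset.finite_toSet.subset ?_
    intro ω hω
    simpa [Polynomial.mem_nthRoots hp] using hω
  have hsub : {β | IsSelmerElt S p F (β ^ p)} ⊆
      ((F ⊔ adjoin ℚ T : IntermediateField ℚ (AlgebraicClosure ℚ)) :
        Set (AlgebraicClosure ℚ)) := by
    intro β hβ
    have hβ' : IsSelmerElt S p F (β ^ p) := hβ
    have hx0 : (⟨β ^ p, hβ'.1⟩ : F) ≠ 0 := fun h => hβ'.2.1 (congrArg Subtype.val h)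
    have hxS : IsSelmerElt S p F
        (((Units.mk0 (⟨β ^ p, hβ'.1⟩ : F) hx0 : Fˣ) : F) : AlgebraicClosure ℚ) := hβ'
    have hc := mk_mem_selmerGroup hxS
    obtain ⟨x', hcx', hgx'⟩ := hg _ ⟨_, hxS, rfl⟩
    obtain ⟨y, hy⟩ := QuotientGroup.eq.1 hcx'
    -- `y ^ p = x'⁻¹ * x`
    have hy' : ((y : F) : AlgebraicClosure ℚ) ^ p * ((x' : F) : AlgebraicClosure ℚ) = β ^ p := by
      have h1 : (y ^ p : Fˣ) = x'⁻¹ * Units.mk0 (⟨β ^ p, hβ'.1⟩ : F) hx0 := hy
      have h2 : x' * y ^ p = Units.mk0 (⟨β ^ p, hβ'.1⟩ : F) hx0 := by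
        rw [h1, mul_inv_cancel_left]
      have h3 := congrArg (fun z : Fˣ => ((z : F) : AlgebraicClosure ℚ)) h2
      simp only [Units.val_mul, Units.val_pow_eq_pow_val, Units.val_mk0,
        MulMemClass.coe_mul, SubmonoidClass.coe_pow] at h3
      rw [mul_comm]
      exact h3
    set b := g (QuotientGroup.mk (Units.mk0 (⟨β ^ p, hβ'.1⟩ : F) hx0)) with hb
    have hx'0 : ((x' : F) : AlgebraicClosure ℚ) ≠ 0 := fun h =>
      x'.ne_zero (Subtype.ext h)
    have hb0 : b ≠ 0 := fun h => hx'0 (by rw [← hgx', h, zero_pow hp.ne'])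
    have hy0 : ((y : F) : AlgebraicClosure ℚ) ≠ 0 := fun h => y.ne_zero (Subtype.ext h)
    have hω : (β / (b * ((y : F) : AlgebraicClosure ℚ))) ^ p = 1 := by
      have hβp : β ^ p = b ^ p * ((y : F) : AlgebraicClosure ℚ) ^ p := by
        rw [hgx', ← hy', mul_comm]
      rw [div_pow, mul_pow, hβp]
      exact div_self (mul_ne_zero (pow_ne_zero p hb0) (pow_ne_zero p hy0))
    have e : β = (β / (b * ((y : F) : AlgebraicClosure ℚ))) *
        (b * ((y : F) : AlgebraicClosure ℚ)) := by
      field_simp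
    rw [e]
    have hTle : adjoin ℚ T ≤ F ⊔ adjoin ℚ T := le_sup_right
    have hFle : F ≤ F ⊔ adjoin ℚ T := le_sup_left
    refine mul_mem (hTle (subset_adjoin ℚ T (Or.inr hω)))
      (mul_mem (hTle (subset_adjoin ℚ T (Or.inl ⟨_, hc, rfl⟩))) (hFle (y : F).2))
  have hle : kummerLevel S p F ≤ F ⊔ adjoin ℚ T :=
    sup_le le_sup_left (adjoin_le_iff.2 hsub)
  haveI : Finite T := hTfin.to_subtype
  haveI : FiniteDimensional ℚ (adjoin ℚ T) :=
    finiteDimensional_adjoin
      (fun x _ => (AlgebraicClosure.isAlgebraic ℚ).isIntegral.isIntegral x)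
  haveI : FiniteDimensional ℚ (F ⊔ adjoin ℚ T : IntermediateField ℚ (AlgebraicClosure ℚ)) :=
    IntermediateField.finiteDimensional_sup F _
  exact FiniteDimensional.of_injective (IntermediateField.inclusion hle).toLinearMap
    (IntermediateField.inclusion_injective hle)

/-- **The Kummer level is unramified outside `S`** (if `F` is, and the prime factors of `p` lie in
`S`). -/
theorem isUnramifiedOutside_kummerLevel (hp : 0 < p)
    (hpS : ∀ ℓ : Nat.Primes, (ℓ : ℕ) ∣ p → ℓ ∈ S) (hF : F.IsUnramifiedOutside S) :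
    (kummerLevel S p F).IsUnramifiedOutside S := by
  haveI := hF.1
  exact ⟨finiteDimensional_kummerLevel S p F hp, fun q hq A hA =>
    inertia_le_fixingSubgroup_kummerLevel hp.ne' hpS hF.2 hq hA⟩

end Selmer

end Fermat.Agent.S55.G.Exist121
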