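import Mathlib

/-!
# S55, layer G, block EXIST (global existence theorem mod `p`): the abstract index identity

Pure algebra, Mathlib only.  Author: helper121.

Setting (all groups additive, abelian).  `X`, `J`, `I` abelian groups, `ι : X →+ J`, `d : X →+ I`,
`p : ℕ` such that `I` has no `p`-torsion.  Think of

* `X = Fˣ`, `J = ∏_{w ∈ S} F_wˣ`, `I =` group of fractional ideals prime to `S`,
* `ι` the diagonal embedding, `d` the divisor map,
* `C = (J × I) / X` the `S`-idèle class group, `E = ker d` the `S`-units, `Cl = I / d X` the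
  `S`-class group, `V = d⁻¹(p I)` (so `V / p X` is the Selmer group `F(S, p)`),
  `Sha = V ∩ ι⁻¹(p J)` (elements of `V` which are local `p`-th powers at all `w ∈ S`).

Main result `Exist121.index_identity`:
`[C : pC] * [E : pE] = [J : pJ] * [Sha : pX]` as soon as `d X` has finite index in `I`.

All indices are expressed by `AddSubgroup.index` / `AddSubgroup.relIndex` of subgroups of `X`, `J`,
`I` and `J × I`; no quotient types are needed by consumers.
-/

set_option autoImplicit false

namespace Fermat.Agent.S55.G.Exist121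

section Defs

variable {X J I : Type*} [AddCommGroup X] [AddCommGroup J] [AddCommGroup I]

/-- The subgroup `p A` of an abelian group. -/
def pMul (A : Type*) [AddCommGroup A] (p : ℕ) : AddSubgroup A :=
  (nsmulAddMonoidHom p : A →+ A).range

lemma mem_pMul {A : Type*} [AddCommGroup A] {p : ℕ} {a : A} :
    a ∈ pMul A p ↔ ∃ b : A, p • b = a := Iff.rfl

lemma nsmul_mem_pMul {A : Type*} [AddCommGroup A] (p : ℕ) (b : A) : p • b ∈ pMul A p :=
  ⟨b, rfl⟩

/-- The diagonal map `X → J × I`. -/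
def diag (ι : X →+ J) (d : X →+ I) : X →+ J × I := ι.prod d

@[simp] lemma diag_apply (ι : X →+ J) (d : X →+ I) (x : X) : diag ι d x = (ι x, d x) := rfl

/-- The subgroup `X + p (J × I)` of `J × I`; its index is `[C : pC]` for `C = (J × I)/X`. -/
def classP (ι : X →+ J) (d : X →+ I) (p : ℕ) : AddSubgroup (J × I) :=
  (diag ι d).range ⊔ pMul (J × I) p

/-- `V = d⁻¹(p I)`: elements whose divisor is a `p`-th multiple. -/
def selV (d : X →+ I) (p : ℕ) : AddSubgroup X := (pMul I p).comap d

/-- `Sha = V ∩ ι⁻¹(p J)`. -/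
def sha (ι : X →+ J) (d : X →+ I) (p : ℕ) : AddSubgroup X := (pMul J p).comap ι ⊓ selV d p

lemma pMul_le_selV (d : X →+ I) (p : ℕ) : pMul X p ≤ selV d p := by
  rintro _ ⟨x, rfl⟩
  exact ⟨d x, by simp⟩

lemma pMul_le_sha (ι : X →+ J) (d : X →+ I) (p : ℕ) : pMul X p ≤ sha ι d p := by
  intro y hy
  refine ⟨?_, pMul_le_selV d p hy⟩
  obtain ⟨x, rfl⟩ := hy
  exact ⟨ι x, by simp⟩

lemma sha_le_selV (ι : X →+ J) (d : X →+ I) (p : ℕ) : sha ι d p ≤ selV d p := inf_le_right

lemma ker_le_selV (d : X →+ I) (p : ℕ) : d.ker ≤ selV d p := by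
  intro x hx
  have hx0 : d x = 0 := hx
  show d x ∈ pMul I p
  rw [hx0]
  exact zero_mem _

end Defs

section Identity

variable {X J I : Type*} [AddCommGroup X] [AddCommGroup J] [AddCommGroup I]
variable (ι : X →+ J) (d : X →+ I) (p : ℕ)

/-- `p E` where `E = ker d`. -/
def pKer : AddSubgroup X := (d.ker).map (nsmulAddMonoidHom p : X →+ X)

lemma pKer_le_ker : pKer d p ≤ d.ker := by
  rintro _ ⟨x, hx, rfl⟩
  have hx0 : d x = 0 := hx
  show d ((nsmulAddMonoidHom p : X →+ X) x) = 0
  simp [hx0]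

/-- If `I` has no `p`-torsion then `p X ∩ E = p E`. -/
lemma pMul_inf_ker (hI : ∀ i : I, p • i = 0 → i = 0) : pMul X p ⊓ d.ker = pKer d p := by
  apply le_antisymm
  · rintro y ⟨⟨x, rfl⟩, hy⟩
    have hy0 : d ((nsmulAddMonoidHom p : X →+ X) x) = 0 := hy
    refine ⟨x, ?_, rfl⟩
    show d x = 0
    apply hI
    simpa using hy0
  · intro y hy
    refine ⟨?_, pKer_le_ker d p hy⟩
    obtain ⟨x, -, rfl⟩ := hy
    exact ⟨x, rfl⟩

/-- Step 1: the comap of `X + p (J × I)` along `J → J × I` is `p J + ι V`. -/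
lemma comap_inl_classP :
    (classP ι d p).comap (AddMonoidHom.inl J I) = pMul J p ⊔ (selV d p).map ι := by
  apply le_antisymm
  · intro j hj
    have hj' : ((j, 0) : J × I) ∈ classP ι d p := hj
    rw [classP, AddSubgroup.mem_sup] at hj'
    obtain ⟨_, ⟨x, rfl⟩, _, ⟨⟨j', i'⟩, rfl⟩, h⟩ := hj'
    have h1 : ι x + p • j' = j := by simpa using congrArg Prod.fst h
    have h2 : d x + p • i' = 0 := by simpa using congrArg Prod.snd h
    rw [AddSubgroup.mem_sup]
    refine ⟨p • j', nsmul_mem_pMul p j', ι x, ⟨x, ?_, rfl⟩, by rw [add_comm]; exact h1⟩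
    show d x ∈ pMul I p
    refine ⟨-i', ?_⟩
    have : d x = -(p • i') := eq_neg_of_add_eq_zero_left h2
    simp [this]
  · rw [sup_le_iff]
    constructor
    · rintro _ ⟨j', rfl⟩
      show ((_, 0) : J × I) ∈ classP ι d p
      refine AddSubgroup.mem_sup_right ⟨(j', 0), ?_⟩
      simp
    · rintro _ ⟨x, ⟨i', hi'⟩, rfl⟩
      show ((ι x, 0) : J × I) ∈ classP ι d p
      rw [classP, AddSubgroup.mem_sup]
      refine ⟨(ι x, d x), ⟨x, rfl⟩, p • ((0 : J), -i'), nsmul_mem_pMul p _, ?_⟩
      have hi'' : p • i' = d x := hi'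
      ext
      · simp
      · simp [← hi'']

/-- The subgroup of `J × I` of pairs whose second component lies in `d X + p I`. -/
def bigK : AddSubgroup (J × I) := (d.range ⊔ pMul I p).comap (AddMonoidHom.snd J I)

lemma classP_le_bigK : classP ι d p ≤ bigK (J := J) d p := by
  rw [classP, sup_le_iff]
  constructor
  · rintro _ ⟨x, rfl⟩
    exact AddSubgroup.mem_sup_left ⟨x, rfl⟩
  · rintro _ ⟨⟨j, i⟩, rfl⟩
    exact AddSubgroup.mem_sup_right ⟨i, by simp⟩

lemma bigK_eq : bigK (J := J) d p = classP ι d p ⊔ (AddMonoidHom.inl J I).range := by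
  apply le_antisymm
  · rintro ⟨j, i⟩ hji
    have hi : i ∈ d.range ⊔ pMul I p := hji
    rw [AddSubgroup.mem_sup] at hi
    obtain ⟨_, ⟨x, rfl⟩, _, ⟨i', rfl⟩, rfl⟩ := hi
    rw [AddSubgroup.mem_sup]
    refine ⟨(ι x, d x) + (0, p • i'), ?_, (j - ι x, 0), ⟨j - ι x, rfl⟩, ?_⟩
    · refine (classP ι d p).add_mem (AddSubgroup.mem_sup_left ⟨x, rfl⟩)
        (AddSubgroup.mem_sup_right ⟨(0, i'), ?_⟩)
      simp
    · ext <;> simp
  · rw [sup_le_iff]
    refine ⟨classP_le_bigK ι d p, ?_⟩
    rintro _ ⟨j, rfl⟩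
    show (0 : I) ∈ d.range ⊔ pMul I p
    exact zero_mem _

/-- Step 1, index form: `[J × I : X + p(J × I)] = [I : dX + pI] * [J : pJ + ιV]`. -/
lemma index_classP :
    (classP ι d p).index =
      (d.range ⊔ pMul I p).index * (pMul J p ⊔ (selV d p).map ι).index := by
  have h1 : (classP ι d p).relIndex (bigK (J := J) d p) * (bigK (J := J) d p).index =
      (classP ι d p).index := AddSubgroup.relIndex_mul_index (classP_le_bigK ι d p)
  have h2 : (bigK (J := J) d p).index = (d.range ⊔ pMul I p).index := by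
    unfold bigK
    exact AddSubgroup.index_comap_of_surjective _ (fun i => ⟨(0, i), rfl⟩)
  have h3 : (classP ι d p).relIndex (bigK (J := J) d p) =
      (pMul J p ⊔ (selV d p).map ι).index := by
    rw [bigK_eq ι d p, AddSubgroup.relIndex_sup_left, ← comap_inl_classP,
      ← AddSubgroup.relIndex_top_right, AddSubgroup.relIndex_comap, ← AddMonoidHom.range_eq_map]
  rw [← h1, h2, h3, mul_comm]

/-- Step 2: `[J : pJ] = [J : pJ + ιV] * [V : Sha]`. -/
lemma index_pMul_J :
    (pMul J p).index =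
      (pMul J p ⊔ (selV d p).map ι).index * (sha ι d p).relIndex (selV d p) := by
  have h1 : (pMul J p).relIndex (pMul J p ⊔ (selV d p).map ι) *
      (pMul J p ⊔ (selV d p).map ι).index = (pMul J p).index :=
    AddSubgroup.relIndex_mul_index le_sup_left
  have h2 : (pMul J p).relIndex (pMul J p ⊔ (selV d p).map ι) =
      (sha ι d p).relIndex (selV d p) := by
    rw [AddSubgroup.relIndex_sup_left, ← AddSubgroup.relIndex_comap, sha,
      AddSubgroup.inf_relIndex_right]
  rw [← h1, h2, mul_comm]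

/-- Step 3: `[V : pX] = [V : Sha] * [Sha : pX]`. -/
lemma relIndex_pMul_selV :
    (pMul X p).relIndex (selV d p) =
      (pMul X p).relIndex (sha ι d p) * (sha ι d p).relIndex (selV d p) :=
  (AddSubgroup.relIndex_mul_relIndex _ _ _ (pMul_le_sha ι d p) (sha_le_selV ι d p)).symm

/-- `E + pX = d⁻¹(d(pX))`. -/
lemma ker_sup_pMul : d.ker ⊔ pMul X p = ((pMul X p).map d).comap d := by
  apply le_antisymm
  · rw [sup_le_iff]
    constructor
    · intro x hx
      have hx0 : d x = 0 := hx
      show d x ∈ (pMul X p).map d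
      rw [hx0]; exact zero_mem _
    · intro x hx
      exact ⟨x, hx, rfl⟩
  · intro x hx
    obtain ⟨y, hy, hxy⟩ := hx
    rw [AddSubgroup.mem_sup]
    refine ⟨x - y, ?_, y, hy, by abel⟩
    show d (x - y) = 0
    rw [map_sub, hxy, sub_self]

/-- `d V = pI ∩ dX`. -/
lemma map_selV : (selV d p).map d = pMul I p ⊓ d.range := by
  apply le_antisymm
  · rintro _ ⟨x, hx, rfl⟩
    exact ⟨hx, x, rfl⟩
  · rintro _ ⟨hi, x, rfl⟩
    exact ⟨x, hi, rfl⟩

/-- `d (pX) = p (dX)`. -/
lemma map_pMul : (pMul X p).map d = (d.range).map (nsmulAddMonoidHom p : I →+ I) := by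
  apply le_antisymm
  · rintro _ ⟨_, ⟨x, rfl⟩, rfl⟩
    exact ⟨d x, ⟨x, rfl⟩, by simp⟩
  · rintro _ ⟨_, ⟨x, rfl⟩, rfl⟩
    exact ⟨p • x, ⟨x, rfl⟩, by simp⟩

/-- Step 4a: `[V : E + pX] = [pI ∩ dX : p dX]`. -/
lemma relIndex_ker_sup_pMul :
    (d.ker ⊔ pMul X p).relIndex (selV d p) =
      ((pMul X p).map d).relIndex (pMul I p ⊓ d.range) := by
  rw [ker_sup_pMul, AddSubgroup.relIndex_comap, map_selV]

/-- Step 4b (`|Cl/p| = |Cl[p]|` for finite `Cl`): if `dX` has finite index in `I` and `I` has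
no `p`-torsion, then `[pI ∩ dX : p dX] = [I : dX + pI]`. -/
lemma relIndex_tor_eq (hI : ∀ i : I, p • i = 0 → i = 0) (hfin : d.range.index ≠ 0) :
    ((pMul X p).map d).relIndex (pMul I p ⊓ d.range) = (d.range ⊔ pMul I p).index := by
  have hinj : Function.Injective (nsmulAddMonoidHom p : I →+ I) := by
    rw [injective_iff_map_eq_zero]
    intro i hi
    exact hI i (by simpa using hi)
  -- `[pI : p dX] = [I : dX]`
  have e1 : ((pMul X p).map d).relIndex (pMul I p) = d.range.index := by
    have hp : pMul I p = (⊤ : AddSubgroup I).map (nsmulAddMonoidHom p : I →+ I) :=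
      AddMonoidHom.range_eq_map _
    rw [map_pMul, hp,
      AddSubgroup.relIndex_map_map_of_injective _ _ hinj, AddSubgroup.relIndex_top_right]
  -- `p dX ≤ pI ∩ dX ≤ pI`
  have hle1 : (pMul X p).map d ≤ pMul I p ⊓ d.range := by
    rintro _ ⟨_, ⟨x, rfl⟩, rfl⟩
    exact ⟨⟨d x, by simp⟩, ⟨p • x, rfl⟩⟩
  have e2 : ((pMul X p).map d).relIndex (pMul I p ⊓ d.range) *
      (pMul I p ⊓ d.range).relIndex (pMul I p) = ((pMul X p).map d).relIndex (pMul I p) :=
    AddSubgroup.relIndex_mul_relIndex _ _ _ hle1 inf_le_left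
  have e3 : (pMul I p ⊓ d.range).relIndex (pMul I p) = d.range.relIndex (d.range ⊔ pMul I p) := by
    rw [AddSubgroup.inf_relIndex_left, AddSubgroup.relIndex_sup_left]
  have e4 : d.range.relIndex (d.range ⊔ pMul I p) * (d.range ⊔ pMul I p).index =
      d.range.index := AddSubgroup.relIndex_mul_index le_sup_left
  have hne : d.range.relIndex (d.range ⊔ pMul I p) ≠ 0 := by
    intro h0
    rw [h0, zero_mul] at e4
    exact hfin e4.symm
  have : ((pMul X p).map d).relIndex (pMul I p ⊓ d.range) *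
      d.range.relIndex (d.range ⊔ pMul I p) =
      (d.range ⊔ pMul I p).index * d.range.relIndex (d.range ⊔ pMul I p) := by
    rw [← e3, e2, e1, ← e4, e3, mul_comm]
  exact Nat.eq_of_mul_eq_mul_right (Nat.pos_of_ne_zero hne) this

/-- Step 4: `[V : pX] = [E : pE] * [I : dX + pI]`. -/
lemma relIndex_pMul_selV' (hI : ∀ i : I, p • i = 0 → i = 0) (hfin : d.range.index ≠ 0) :
    (pMul X p).relIndex (selV d p) =
      (pKer d p).relIndex d.ker * (d.range ⊔ pMul I p).index := by
  have h1 : (pMul X p).relIndex (d.ker ⊔ pMul X p) * (d.ker ⊔ pMul X p).relIndex (selV d p) =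
      (pMul X p).relIndex (selV d p) :=
    AddSubgroup.relIndex_mul_relIndex _ _ _ le_sup_right
      (sup_le (ker_le_selV d p) (pMul_le_selV d p))
  have h2 : (pMul X p).relIndex (d.ker ⊔ pMul X p) = (pKer d p).relIndex d.ker := by
    rw [AddSubgroup.relIndex_sup_right, ← AddSubgroup.inf_relIndex_right, pMul_inf_ker d p hI]
  rw [← h1, h2, relIndex_ker_sup_pMul, relIndex_tor_eq d p hI hfin]

/-- **Index identity.**  `[C : pC] * [E : pE] = [J : pJ] * [Sha : pX]`, where
`C = (J × I)/X`, `E = ker d`, `Sha = {x ∈ X : d x ∈ pI, ι x ∈ pJ}`; valid as soon as `I` has no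
`p`-torsion and `d X` has finite index in `I`.  (Indices of infinite-index subgroups are `0`.) -/
theorem index_identity (hI : ∀ i : I, p • i = 0 → i = 0) (hfin : d.range.index ≠ 0) :
    (classP ι d p).index * (pKer d p).relIndex d.ker =
      (pMul J p).index * (pMul X p).relIndex (sha ι d p) := by
  rw [index_classP, index_pMul_J ι d p]
  have h3 := relIndex_pMul_selV ι d p
  have h4 := relIndex_pMul_selV' d p hI hfin
  -- a*b*e = b*s*t  where  v = t*s,  v = e*a
  calc (d.range ⊔ pMul I p).index * (pMul J p ⊔ (selV d p).map ι).index *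
        (pKer d p).relIndex d.ker
      = (pMul J p ⊔ (selV d p).map ι).index *
          ((pKer d p).relIndex d.ker * (d.range ⊔ pMul I p).index) := by ring
    _ = (pMul J p ⊔ (selV d p).map ι).index * (pMul X p).relIndex (selV d p) := by rw [h4]
    _ = (pMul J p ⊔ (selV d p).map ι).index *
          ((pMul X p).relIndex (sha ι d p) * (sha ι d p).relIndex (selV d p)) := by rw [h3]
    _ = (pMul J p ⊔ (selV d p).map ι).index * (sha ι d p).relIndex (selV d p) *
          (pMul X p).relIndex (sha ι d p) := by ring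

end Identity

end Fermat.Agent.S55.G.Exist121
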