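import Fermat.Agent.S55.G.Exist121.Spec
import Fermat.Agent.S55.T.All

/-!
# S55, layer G, block EXIST: leaf EX-REC (reciprocity isomorphism for `p`-groups)

Author: helper121.  `recip_of : PClassModuleSpec → RecipSpec`, from the class module property
(G-CM), `T.All.classModuleOfCyclic` and `T.All.tateReciprocity` (both unconditional on main),
plus the transport from the subgroup `⊤ ≤ G` to `G`.
-/

set_option autoImplicit false
set_option linter.unusedSectionVars false
set_option linter.style.haveILetI false

open scoped NumberField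
open IsDedekindDomain CategoryTheory

noncomputable section

namespace Fermat.Agent.S55.G.Exist121

open Fermat.Agent.S55 Fermat.Agent.S55.G

section Top

variable {k G : Type} [CommRing k] [Group G] [Fintype G] [Fintype (⊤ : Subgroup G)]
  (C : Rep.{0} k G)

lemma mem_invariants_resTop (v : C.V) :
    v ∈ (T.resSub C ⊤).ρ.invariants ↔ v ∈ C.ρ.invariants := by
  rw [Representation.mem_invariants, Representation.mem_invariants]
  constructor
  · intro h g
    exact h ⟨g, Subgroup.mem_top g⟩
  · intro h g
    exact h (g : G)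

lemma norm_resTop (v : C.V) : (T.resSub C ⊤).ρ.norm v = C.ρ.norm v := by
  rw [Representation.norm, Representation.norm, LinearMap.sum_apply, LinearMap.sum_apply]
  exact Fintype.sum_equiv Subgroup.topEquiv.toEquiv _ _ (fun g => rfl)

/-- The identity map between the invariants of `C` restricted to `⊤` and those of `C`. -/
def invTopEquiv : ↥(T.resSub C ⊤).ρ.invariants ≃ₗ[k] ↥C.ρ.invariants where
  toFun v := ⟨v.1, (mem_invariants_resTop C v.1).1 v.2⟩
  invFun v := ⟨v.1, (mem_invariants_resTop C v.1).2 v.2⟩
  map_add' _ _ := rfl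
  map_smul' _ _ := rfl
  left_inv _ := rfl
  right_inv _ := rfl

/-- `Ĥ⁰(⊤, C) ≃ Ĥ⁰(G, C)`. -/
def hat0TopEquiv : T.hat0 (T.resSub C ⊤) ≃+ T.hat0 C :=
  (Submodule.Quotient.equiv _ _ (invTopEquiv C) (by
    apply Submodule.ext
    intro v
    constructor
    · rintro ⟨w, hw, rfl⟩
      obtain ⟨c, hc⟩ := hw
      exact ⟨c, by rw [← norm_resTop]; exact hc⟩
    · rintro ⟨c, hc⟩
      refine ⟨(invTopEquiv C).symm v, ⟨c, ?_⟩, by simp⟩
      rw [norm_resTop]
      exact hc)).toAddEquiv

end Top

/-- **EX-REC** from the class module property of `C_S(L)` for `p`-groups. -/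
theorem recip_of (hCM : PClassModuleSpec) : RecipSpec := by
  intro p hp hp2 S G L _ _ _ _ _ _ hpS hG hunr hfix
  have h := hCM p hp2 S G L hpS hG hunr hfix
  obtain ⟨⟨γ, hγ⟩, -⟩ := T.All.classModuleOfCyclic G (CRep S G L) (fun H => (h H).1)
    (fun H => (h H).2)
  letI : Fintype (⊤ : Subgroup G) := Fintype.ofFinite _
  obtain ⟨e⟩ := T.All.tateReciprocity G (CRep S G L) γ hγ ⊤
  exact ⟨((MulEquiv.abelianizationCongr
    (Subgroup.topEquiv (G := G))).symm.toAdditive).trans (e.trans (hat0TopEquiv (CRep S G L)))⟩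

end Fermat.Agent.S55.G.Exist121
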