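import Fermat.Agent.S55.G.Exist121.Spec
import Fermat.Agent.S55.T.All

set_option autoImplicit false
set_option linter.style.haveILetI false
set_option linter.unusedSectionVars false
set_option linter.unusedVariables false

/-!
# S55, layer G, block EXIST, leaf EX-REC (helper654)

`recip_of : PClassModuleSpec → RecipSpec`: the reciprocity isomorphism
`G^ab ≃ C_S(L)^G / N_G C_S(L)` for `p`-groups, from the class module property (G-CM) and Tate's
theorem (layer T, `T.All.tateReciprocity`).
-/

noncomputable section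

namespace Fermat.Agent.S55.G.Exist121.H654

open Fermat.Agent.S55 Fermat.Agent.S55.G CategoryTheory

section Top

variable {k G : Type} [CommRing k] [Group G] [Fintype G] [Fintype (⊤ : Subgroup G)]
  (C : Rep.{0} k G)

theorem mem_invariants_resSub_top (x : C.V) :
    x ∈ (T.resSub C ⊤).ρ.invariants ↔ x ∈ C.ρ.invariants := by
  constructor
  · intro h g
    exact h ⟨g, Subgroup.mem_top g⟩
  · intro h g
    exact h g.1

theorem norm_resSub_top (x : C.V) : (T.resSub C ⊤).ρ.norm x = C.ρ.norm x := by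
  simp only [Representation.norm, LinearMap.sum_apply]
  exact Fintype.sum_equiv Subgroup.topEquiv.toEquiv _ _ (fun g => rfl)

/-- the identity map `C^⊤ → C^G` -/
def invTopTo : ↥(T.resSub C ⊤).ρ.invariants →ₗ[k] ↥C.ρ.invariants where
  toFun x := ⟨x.1, (mem_invariants_resSub_top C x.1).1 x.2⟩
  map_add' _ _ := rfl
  map_smul' _ _ := rfl

/-- the identity map `C^G → C^⊤` -/
def invTopFrom : ↥C.ρ.invariants →ₗ[k] ↥(T.resSub C ⊤).ρ.invariants where
  toFun x := ⟨x.1, (mem_invariants_resSub_top C x.1).2 x.2⟩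
  map_add' _ _ := rfl
  map_smul' _ _ := rfl

/-- `Ĥ⁰` of the restriction to `⊤` is `Ĥ⁰`. -/
def hat0TopEquiv : T.hat0 (T.resSub C ⊤) ≃+ T.hat0 C := by
  have h1 : (LinearMap.range (T.resSub C ⊤).ρ.norm).comap (T.resSub C ⊤).ρ.invariants.subtype ≤
      ((LinearMap.range C.ρ.norm).comap C.ρ.invariants.subtype).comap (invTopTo C) := by
    rintro x ⟨y, hy⟩
    exact ⟨y, (norm_resSub_top C y).symm.trans hy⟩
  have h2 : (LinearMap.range C.ρ.norm).comap C.ρ.invariants.subtype ≤
      ((LinearMap.range (T.resSub C ⊤).ρ.norm).comap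
        (T.resSub C ⊤).ρ.invariants.subtype).comap (invTopFrom C) := by
    rintro x ⟨y, hy⟩
    exact ⟨y, (norm_resSub_top C y).trans hy⟩
  refine (LinearEquiv.ofLinearMap (Submodule.mapQ _ _ (invTopTo C) h1)
    (Submodule.mapQ _ _ (invTopFrom C) h2) ?_ ?_).toAddEquiv
  · apply LinearMap.ext
    intro x
    obtain ⟨x, rfl⟩ := Submodule.Quotient.mk_surjective _ x
    rfl
  · apply LinearMap.ext
    intro x
    obtain ⟨x, rfl⟩ := Submodule.Quotient.mk_surjective _ x
    rfl

end Top

/-- **EX-REC** from the class module property and Tate's theorem. -/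
theorem recip_of (hCM : PClassModuleSpec) : RecipSpec := by
  intro p hp hp2 S G L _ _ _ _ _ _ hpS hpG hunr hμ
  classical
  have h := hCM p hp2 S G L hpS hpG hunr hμ
  obtain ⟨⟨γ, hγ⟩, -⟩ := T.All.classModuleOfCyclic G (CRep S G L)
    (fun H => (h H).1) (fun H => (h H).2)
  letI : Fintype (⊤ : Subgroup G) := Fintype.ofFinite _
  obtain ⟨e⟩ := T.All.tateReciprocity G (CRep S G L) γ hγ ⊤
  exact ⟨((Subgroup.topEquiv (G := G)).abelianizationCongr.symm.toAdditive).trans
    (e.trans (hat0TopEquiv (CRep S G L)))⟩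

end Fermat.Agent.S55.G.Exist121.H654

end
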