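import Fermat.Agent.S55.G.Exist121.FieldFinite
import Fermat.Agent.S55.G.Exist121.Spec
import Fermat.Agent.S55.Bridge.PlacePrime

/-!
# S55, layer G, block EXIST: the Kummer level is Kummer-saturated

Author: helper121.  Bridge between the intrinsic `p`-Selmer group `selmer S F p`
(`p ∣ ord_w(x)` for all primes `w` of `𝓞 F` not above `S`; `G/Defs.lean`) and the Prelude-style
condition `IsSelmerElt S p F x` (valuation subrings of `ℚ̄`) defining `kummerLevel S p F`:

* `isSelmerElt_of_mem_selmer` : `x ∈ selmer S F p → IsSelmerElt S p F x`;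
* `exists_root_mem_kummerLevel` : every `x ∈ selmer S F p` has a `p`-th root in
  `kummerLevel S p F`.
-/

set_option autoImplicit false
set_option linter.unusedSectionVars false
set_option linter.style.haveILetI false

open scoped NumberField
open IsDedekindDomain

noncomputable section

namespace Fermat.Agent.S55.G.Exist121

open Fermat.Agent.S55 Fermat.Agent.S55.G Fermat.Agent.S55.Bridge

variable (S : Finset Nat.Primes) (p : ℕ) (F : IntermediateField ℚ (AlgebraicClosure ℚ))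
  [FiniteDimensional ℚ F]

attribute [local instance] H594.numberField_of_finite

/-- A place of `ℚ̄` over a prime `q ∉ S` induces a prime of `𝓞 F` not above `S`. -/
lemma not_isAbove_placePrime {q : Nat.Primes} (hq : q ∉ S)
    (A : ValuationSubring (AlgebraicClosure ℚ)) (hA : A.LiesOverPrime (q : ℕ)) :
    ¬ IsAbove S F (placePrime F A q.2 hA) := by
  rintro ⟨q', hq'S, hq'w⟩
  have hne : q ≠ q' := fun h => hq (h ▸ hq'S)
  have hcop : Nat.Coprime (q : ℕ) (q' : ℕ) :=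
    (Nat.coprime_primes q.2 q'.2).2 (fun h => hne (Subtype.ext h))
  have h1 : A.valuation ((q' : ℕ) : AlgebraicClosure ℚ) = 1 :=
    Fermat.Agent.S55.H893.val_natCast_eq_one_of_coprime hA hcop
  have h2 : algebraMap (𝓞 F) (AlgebraicClosure ℚ) ((q' : ℕ) : 𝓞 F) ∈ A.nonunits :=
    (H594.mem_primeBelowF F A _).1 hq'w
  rw [map_natCast, ValuationSubring.mem_nonunits_iff, h1] at h2
  exact lt_irrefl _ h2

/-- **Intrinsic Selmer ⇒ Prelude Selmer.** -/
theorem isSelmerElt_of_mem_selmer (x : Additive (↥F)ˣ) (hx : x ∈ selmer S ↥F p) :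
    IsSelmerElt S p F (((x.toMul : (↥F)ˣ) : ↥F) : AlgebraicClosure ℚ) := by
  refine ⟨(x.toMul : ↥F).2, ?_, fun q hq A hA => ?_⟩
  · intro h
    have : ((x.toMul : (↥F)ˣ) : ↥F) = 0 := Subtype.ext h
    exact (Units.ne_zero _) this
  obtain ⟨d, hd⟩ := (mem_selmer_iff S ↥F p x).1 hx
  set w : HeightOneSpectrum (𝓞 F) := placePrime F A q.2 hA with hw
  have hwS : ¬ IsAbove S F w := not_isAbove_placePrime S F hq A hA
  let w' : PrimeOut S ↥F := ⟨w, hwS⟩
  set m : ℤ := d w' with hm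
  have hord : ordAt w x = p * m := by
    have h1 : (p • d) w' = ordHom S ↥F x w' := DFunLike.congr_fun hd w'
    rw [ordHom_apply, Finsupp.smul_apply, nsmul_eq_mul] at h1
    exact h1.symm
  obtain ⟨π, hπ⟩ := w.valuation_exists_uniformizer F
  have hπ0 : π ≠ 0 := by
    rintro rfl
    rw [map_zero] at hπ
    exact WithZero.exp_ne_zero hπ.symm
  -- the unit `u = x / π^(m p)`
  let πu : (↥F)ˣ := Units.mk0 π hπ0
  let u : (↥F)ˣ := x.toMul * (πu ^ m)⁻¹ ^ p
  have hval : w.valuation F (u : ↥F) = 1 := by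
    have h1 : w.valuation F ((x.toMul : (↥F)ˣ) : ↥F) = WithZero.exp (-(p * m : ℤ)) := by
      rw [valuation_eq_exp_neg_ordAt, hord]
    have h2 : w.valuation F (((πu ^ m : (↥F)ˣ) : ↥F)) = WithZero.exp (-m) := by
      rw [Units.val_zpow_eq_zpow_val, map_zpow₀]
      show (w.valuation F π) ^ m = _
      rw [hπ, ← WithZero.exp_zsmul]
      simp
    show w.valuation F (((x.toMul * (πu ^ m)⁻¹ ^ p : (↥F)ˣ) : ↥F)) = 1
    rw [Units.val_mul, Units.val_pow_eq_pow_val, Units.val_inv_eq_inv_val, map_mul, map_pow,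
      map_inv₀, h1, h2, ← WithZero.exp_neg, ← WithZero.exp_nsmul, ← WithZero.exp_add]
    rw [← WithZero.exp_zero]
    congr 1
    simp only [nsmul_eq_mul, neg_neg]
    ring
  obtain ⟨h3, h4⟩ := (unit_iff_valuation_eq_one F A q.2 hA u).2 hval
  refine ⟨((πu ^ m : (↥F)ˣ) : ↥F), ((πu ^ m : (↥F)ˣ) : ↥F).2, ?_, ?_, ?_⟩
  · intro h
    have : ((πu ^ m : (↥F)ˣ) : ↥F) = 0 := Subtype.ext h
    exact (Units.ne_zero _) this
  · have e1 : (((x.toMul : (↥F)ˣ) : ↥F) : AlgebraicClosure ℚ) /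
        (((πu ^ m : (↥F)ˣ) : ↥F) : AlgebraicClosure ℚ) ^ p = ((u : ↥F) : AlgebraicClosure ℚ) := by
      show _ = (((x.toMul * (πu ^ m)⁻¹ ^ p : (↥F)ˣ) : ↥F) : AlgebraicClosure ℚ)
      rw [Units.val_mul, Units.val_pow_eq_pow_val, Units.val_inv_eq_inv_val]
      push_cast
      rw [div_eq_mul_inv, inv_pow]
    rw [e1]
    exact h3
  · have e2 : (((πu ^ m : (↥F)ˣ) : ↥F) : AlgebraicClosure ℚ) ^ p /
        (((x.toMul : (↥F)ˣ) : ↥F) : AlgebraicClosure ℚ) =
        (((u⁻¹ : (↥F)ˣ) : ↥F) : AlgebraicClosure ℚ) := by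
      show _ = ((((x.toMul * (πu ^ m)⁻¹ ^ p)⁻¹ : (↥F)ˣ) : ↥F) : AlgebraicClosure ℚ)
      rw [mul_inv, Units.val_mul, ← inv_pow, inv_inv, Units.val_pow_eq_pow_val,
        Units.val_inv_eq_inv_val]
      push_cast
      rw [div_eq_mul_inv, mul_comm]
    rw [e2]
    exact h4

/-- **Saturation.**  Every element of the intrinsic Selmer group `selmer S F p` has a `p`-th
root in the Kummer level. -/
theorem exists_root_mem_kummerLevel (hp : p ≠ 0) (x : Additive (↥F)ˣ) (hx : x ∈ selmer S ↥F p) :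
    ∃ β ∈ kummerLevel S p F,
      β ^ p = (((x.toMul : (↥F)ˣ) : ↥F) : AlgebraicClosure ℚ) := by
  obtain ⟨β, hβ⟩ := IsAlgClosed.exists_pow_nat_eq
    ((((x.toMul : (↥F)ˣ) : ↥F) : AlgebraicClosure ℚ)) (Nat.pos_of_ne_zero hp)
  refine ⟨β, mem_kummerLevel_of_pow ?_, hβ⟩
  rw [hβ]
  exact isSelmerElt_of_mem_selmer S p F x hx

end Fermat.Agent.S55.G.Exist121
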