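import Fermat.Agent.S55.G.Exist121.Core
import Fermat.Agent.S55.G.Exist121.Desc
import Fermat.Agent.S55.G.Exist121.Recip
import Fermat.Agent.S55.G.Exist.H361.KummerField

/-!
# S55, layer G, block EXIST: leaf EX-SHA  (`[Sha : pKˣ] ≤ |Cl_S / p|`)

Author: helper121.  `shaBound_of : Exist.KummerFieldSpec → RecipSpec → DescentTopSpec → ShaBoundSpec`.

Proof.  Let `M = K(Sha^{1/p})`, `Γ = Gal(M/K)` (`KummerFieldSpec`, helper233/helper361): `Γ` is
commutative of exponent `p`, `|Γ| = [Sha : pKˣ]`, `M/K` is unramified outside `S`, and every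
`j ∈ J_S(K)` is a norm from `J_S(M)`.  By reciprocity `C_S(M)^Γ / N_Γ C_S(M) ≃ Γ^ab = Γ`, and by
descent `C_S(M)^Γ = C_S(K)`.  The norm group contains `p C_S(K)` (exponent `p`) and the image of
`J_S(K)`, so `|Γ| = [C_S(K) : N] ≤ [C_S(K) : p C_S(K) + im J_S(K)] = [Div : div Kˣ + p Div]`.
-/

set_option autoImplicit false
set_option linter.unusedSectionVars false
set_option linter.style.haveILetI false

open scoped NumberField
open IsDedekindDomain CategoryTheory

noncomputable section

namespace Fermat.Agent.S55.G.Exist121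

open Fermat.Agent.S55 Fermat.Agent.S55.G

/-- **EX-SHA** from EX-KUM, EX-REC and EX-DESC. -/
theorem shaBound_of (hKum : Exist.KummerFieldSpec) (hRec : RecipSpec) (hDesc : DescentTopSpec) :
    ShaBoundSpec := by
  intro p hp hp2 S K _ _ hpS hζ
  by_cases h0 : (pMul (Additive Kˣ) p).relIndex (shaS S K p) = 0
  · rw [h0]; exact Nat.zero_le _
  have hB1 : Exist.pMul p (Additive Kˣ) ≤ shaS S K p := pMul_le_sha _ _ p
  have hB2 : shaS S K p ≤ Exist.kDelta p S K := sha_le_selV _ _ p
  obtain ⟨M, _, _, _, Γ, _, _, _, _, hfix, hcomm, hexp, hcard, hunr, -, hnorm⟩ :=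
    hKum p hp2 S K hpS hζ (shaS S K p) hB1 hB2 h0
  have hnorm' := hnorm (fun x hx => ⟨hx.2, hx.1⟩)
  obtain ⟨ζ, hζ'⟩ := hζ
  have hfixK : ∀ (g : Γ) (k : K), g • algebraMap K M k = algebraMap K M k :=
    fun g k => (hfix _).2 ⟨k, rfl⟩ g
  haveI : IsGaloisGroup Γ K M :=
    { faithful := inferInstance
      commutes := ⟨fun g k x => by
        rw [Algebra.smul_def, Algebra.smul_def, smul_mul', hfixK]⟩
      isInvariant := ⟨fun x hx => by
        obtain ⟨k, hk⟩ := (hfix x).1 hx
        exact ⟨k, hk⟩⟩ }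
  have hG : IsPGroup p Γ := fun g => ⟨1, by rw [pow_one]; exact hexp g⟩
  have hroot : HasFixedRootOfUnity p Γ M :=
    ⟨algebraMap K M ζ, hζ'.map_of_injective (algebraMap K M).injective, fun g => hfixK g ζ⟩
  obtain ⟨e⟩ := hRec p hp2 S Γ M hpS hG hunr hroot
  obtain ⟨ι, hιinj, hιrange, hιJ⟩ := hDesc S Γ K M ⟨_, hpS⟩ hunr
  -- the invariants and `Ĥ⁰`
  set A : Submodule ℤ (CS S M) := (cRepr S Γ M).invariants with hA
  have hmemA : ∀ c : CS S M, c ∈ A ↔ ∀ g : Γ, cRepr S Γ M g c = c :=
    fun c => Representation.mem_invariants _ c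
  let ι' : CS S K →+ A := ι.codRestrict A.toAddSubgroup
    (fun x => (hmemA _).2 ((hιrange _).2 ⟨x, rfl⟩))
  have hι'surj : Function.Surjective ι' := by
    intro a
    obtain ⟨x, hx⟩ := (hιrange a.1).1 ((hmemA _).1 a.2)
    exact ⟨x, Subtype.ext hx⟩
  let N : Submodule ℤ A := (LinearMap.range (cRepr S Γ M).norm).comap A.subtype
  let π : A →+ T.hat0 (CRep S Γ M) := N.mkQ.toAddMonoidHom
  have hπ : Function.Surjective π := Submodule.mkQ_surjective _
  have hπ0 : ∀ a : A, (a : CS S M) ∈ LinearMap.range (cRepr S Γ M).norm → π a = 0 := by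
    intro a ha
    show N.mkQ a = 0
    rw [Submodule.mkQ_apply, Submodule.Quotient.mk_eq_zero]
    exact ha
  let q : JD S K →+ CS S K := (principal S K).mkQ.toAddMonoidHom
  have hq : Function.Surjective q := Submodule.mkQ_surjective _
  let f : JD S K →+ T.hat0 (CRep S Γ M) := (π.comp ι').comp q
  have hf : Function.Surjective f := (hπ.comp hι'surj).comp hq
  -- `|Ĥ⁰| = |Γ| = [Sha : pKˣ]`
  have hcard1 : Nat.card (T.hat0 (CRep S Γ M)) = (pMul (Additive Kˣ) p).relIndex (shaS S K p) := by
    rw [← Nat.card_congr e.toEquiv]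
    letI : CommGroup Γ := { (inferInstance : Group Γ) with mul_comm := hcomm }
    have e2 : Γ ≃ Additive (Abelianization Γ) :=
      (Abelianization.equivOfComm (H := Γ)).toEquiv.trans Additive.ofMul
    rw [← Nat.card_congr e2, Nat.card_eq_fintype_card]
    exact hcard
  have hidx : f.ker.index = (pMul (Additive Kˣ) p).relIndex (shaS S K p) := by
    rw [AddSubgroup.index_ker, ← hcard1]
    exact Nat.card_congr (Equiv.ofBijective (fun x : f.range => (x : T.hat0 (CRep S Γ M)))
      ⟨Subtype.val_injective, fun y => by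
        obtain ⟨x, hx⟩ := hf y
        exact ⟨⟨y, x, hx⟩, rfl⟩⟩)
  -- `Ĥ⁰` is killed by `p`
  have hkill : ∀ x : T.hat0 (CRep S Γ M), p • x = 0 := by
    intro x
    obtain ⟨a, rfl⟩ := e.surjective x
    rw [← map_nsmul]
    have : p • a = 0 := by
      obtain ⟨g, hg⟩ := QuotientGroup.mk_surjective (Additive.toMul a)
      have ha : a = Additive.ofMul (Abelianization.of g) := by
        apply Additive.toMul.injective
        exact hg.symm
      rw [ha, ← ofMul_pow, ← map_pow, hexp, map_one]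
      rfl
    rw [this, map_zero]
  -- the big subgroup is contained in the kernel
  have hle : bigK (J := Additive (AS S K)ˣ) (ordHom S K) p ≤ f.ker := by
    rw [bigK_eq (unitsDiag S K) (ordHom S K) p, sup_le_iff]
    refine ⟨?_, ?_⟩
    · rw [classP, sup_le_iff]
      refine ⟨?_, ?_⟩
      · rintro _ ⟨x, rfl⟩
        rw [AddMonoidHom.mem_ker]
        have hq0 : q (diag (unitsDiag S K) (ordHom S K) x) = 0 := by
          show (principal S K).mkQ _ = 0
          rw [Submodule.mkQ_apply, Submodule.Quotient.mk_eq_zero]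
          exact ⟨x, rfl⟩
        show π (ι' (q _)) = 0
        rw [hq0, map_zero, map_zero]
      · rintro _ ⟨y, rfl⟩
        rw [AddMonoidHom.mem_ker]
        show f (p • y) = 0
        rw [map_nsmul]
        exact hkill _
    · rintro _ ⟨y, rfl⟩
      rw [AddMonoidHom.mem_ker]
      show π (ι' (q (y, 0))) = 0
      apply hπ0
      obtain ⟨j', hj'⟩ := hnorm' y
      refine ⟨(principal S M).mkQ (j', 0), ?_⟩
      show (cRepr S Γ M).norm ((principal S M).mkQ (j', 0)) = ι ((principal S K).mkQ (y, 0))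
      rw [hιJ, ← hj']
      rw [Representation.norm, LinearMap.sum_apply]
      have h1 : ∀ g : Γ, (cRepr S Γ M g) ((principal S M).mkQ (j', 0)) =
          (principal S M).mkQ (jRepr Γ S M g j', 0) := by
        intro g
        have h0 : jdRepr S Γ M g (j', 0) = (jRepr Γ S M g j', 0) :=
          Prod.ext rfl (map_zero (divRepr S Γ M g))
        show Submodule.Quotient.mk (jdRepr S Γ M g (j', 0)) = _
        rw [h0]
        rfl
      simp only [h1]
      rw [← map_sum]
      congr 1
      refine Prod.ext ?_ ?_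
      · simp [Prod.fst_sum]
      · simp [Prod.snd_sum]
  -- conclusion
  have hbig : (bigK (J := Additive (AS S K)ˣ) (ordHom S K) p).index =
      ((ordHom S K).range ⊔ pMul (PrimeOut S K →₀ ℤ) p).index := by
    unfold bigK
    exact AddSubgroup.index_comap_of_surjective _ (fun i => ⟨(0, i), rfl⟩)
  have hbig0 : ((ordHom S K).range ⊔ pMul (PrimeOut S K →₀ ℤ) p).index ≠ 0 := by
    intro h
    have h1 := AddSubgroup.index_dvd_of_le
      (le_sup_left : (ordHom S K).range ≤ (ordHom S K).range ⊔ pMul (PrimeOut S K →₀ ℤ) p)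
    rw [h] at h1
    exact ClsH604.ordHom_range_index_ne_zero S K (Nat.eq_zero_of_zero_dvd h1)
  rw [← hidx, ← hbig]
  exact Nat.le_of_dvd (Nat.pos_of_ne_zero (hbig ▸ hbig0)) (AddSubgroup.index_dvd_of_le hle)

end Fermat.Agent.S55.G.Exist121
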