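import Fermat.Agent.S55.G.Exist121.Desc

/-!
# S55, layer G, block EXIST: transitivity of norms

Author: helper121.  Let `K₁ ⊂ L` be number fields, `G` a finite group acting on `L`, `Q` a finite
group acting on `K₁`, `φ : G → Q` a surjection compatible with the actions such that `K₁` is the
fixed field of `ker φ`, and `L/K₁` unramified outside `S`.  If `N_Q C_S(K₁) ⊆ p · C_S(K₁)^Q` then
`N_G C_S(L) ⊆ p · C_S(L)^G`  (`norm_in_p_trans`).

Proof: `N_G = N_Q ∘ N_{ker φ}` and `C_S(L)^{ker φ} = C_S(K₁)` (descent, helper773's `cBase`).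
-/

set_option autoImplicit false
set_option linter.unusedSectionVars false
set_option linter.style.haveILetI false

open scoped NumberField
open IsDedekindDomain

noncomputable section

namespace Fermat.Agent.S55.G.Exist121

open Fermat.Agent.S55.G Fermat.Agent.S55.G.DescH773

section Sum

variable {G Q M : Type*} [Group G] [Fintype G] [Group Q] [Fintype Q] [AddCommMonoid M]

/-- Summation over a finite group along a surjection `φ : G → Q`:
`∑_g f(g) = ∑_q ∑_{k ∈ ker φ} f(s(q) k)` for any section `s`. -/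
lemma sum_eq_sum_ker (φ : G →* Q) [Fintype φ.ker] (s : Q → G) (hs : ∀ q, φ (s q) = q)
    (f : G → M) : ∑ g : G, f g = ∑ q : Q, ∑ k : φ.ker, f (s q * (k : G)) := by
  classical
  let e : Q × φ.ker → G := fun x => s x.1 * (x.2 : G)
  have he : Function.Bijective e := by
    constructor
    · rintro ⟨q, k⟩ ⟨q', k'⟩ h
      have h1 : s q * (k : G) = s q' * (k' : G) := h
      have h2 := congrArg φ h1
      rw [map_mul, map_mul, hs, hs, (MonoidHom.mem_ker).1 k.2, (MonoidHom.mem_ker).1 k'.2,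
        mul_one, mul_one] at h2
      subst h2
      have h3 : (k : G) = (k' : G) := mul_left_cancel h1
      exact Prod.ext rfl (Subtype.ext h3)
    · intro g
      refine ⟨(φ g, ⟨(s (φ g))⁻¹ * g, ?_⟩), ?_⟩
      · rw [MonoidHom.mem_ker, map_mul, map_inv, hs, inv_mul_cancel]
      · show s (φ g) * ((s (φ g))⁻¹ * g) = g
        rw [mul_inv_cancel_left]
  rw [← Fintype.sum_prod_type' (f := fun q (k : φ.ker) => f (s q * (k : G)))]
  exact (Fintype.sum_equiv (Equiv.ofBijective e he) _ _ (fun x => rfl)).symm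

end Sum

/-- **Transitivity of norms.** -/
theorem norm_in_p_trans (S : Finset Nat.Primes) (p : ℕ) (G Q K₁ L : Type) [Group G] [Fintype G]
    [Group Q] [Fintype Q] [Field K₁] [NumberField K₁] [Field L] [NumberField L] [Algebra K₁ L]
    [MulSemiringAction G L] [MulSemiringAction Q K₁]
    (φ : G →* Q) (hφ : Function.Surjective φ)
    (hcompat : ∀ (g : G) (x : K₁), algebraMap K₁ L (φ g • x) = g • algebraMap K₁ L x)
    [IsGaloisGroup φ.ker K₁ L] (hS : S.Nonempty) (hunr : IsUnramOut S G L)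
    (h₁ : ∀ c₁ : CS S K₁, ∃ c₀ : CS S K₁, (∀ q : Q, cRepr S Q K₁ q c₀ = c₀) ∧
      ∑ q : Q, cRepr S Q K₁ q c₁ = p • c₀) :
    ∀ c : CS S L, ∃ c₀ : CS S L, (∀ g : G, cRepr S G L g c₀ = c₀) ∧
      ∑ g : G, cRepr S G L g c = p • c₀ := by
  classical
  intro c
  letI : Fintype φ.ker := Fintype.ofFinite _
  -- the norm for `ker φ`
  set n : CS S L := ∑ k : φ.ker, cRepr S G L (k : G) c with hn
  have hninv : ∀ k : φ.ker, cRepr S φ.ker L k n = n := by
    intro k
    rw [cRepr_subgroup, hn, map_sum]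
    refine Fintype.sum_equiv (Equiv.mulLeft k) _ _ (fun k' => ?_)
    show cRepr S G L (k : G) (cRepr S G L (k' : G) c) = cRepr S G L ((k * k' : φ.ker) : G) c
    rw [Subgroup.coe_mul, map_mul]
    rfl
  have hunr' : IsUnramOut S φ.ker L := fun w hw k hk x => hunr w hw (k : G) hk x
  have he : ∀ w : PrimeOut S L, eAt K₁ w.1 = 1 :=
    eAt_eq_one_of_isUnramOut S φ.ker K₁ L hunr'
  obtain ⟨c₁, hc₁⟩ := exists_cBase_eq_of_fixed S φ.ker K₁ L hS he n hninv
  obtain ⟨c₀', hinv, hsum⟩ := h₁ c₁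
  have hcb : ∀ (g : G) (x : CS S K₁),
      cRepr S G L g (cBase S K₁ L x) = cBase S K₁ L (cRepr S Q K₁ (φ g) x) :=
    fun g x => (cBase_cRepr_of_compat S Q G K₁ L (φ g) g (hcompat g) x).symm
  refine ⟨cBase S K₁ L c₀', fun g => ?_, ?_⟩
  · rw [hcb, hinv]
  · obtain ⟨s, hs⟩ := hφ.hasRightInverse
    rw [sum_eq_sum_ker φ s hs (fun g => cRepr S G L g c)]
    have h2 : ∀ q : Q, ∑ k : φ.ker, cRepr S G L (s q * (k : G)) c =
        cBase S K₁ L (cRepr S Q K₁ q c₁) := by
      intro q
      have h3 : ∀ k : φ.ker, cRepr S G L (s q * (k : G)) c =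
          cRepr S G L (s q) (cRepr S G L (k : G) c) := by
        intro k
        rw [map_mul]
        rfl
      simp only [h3]
      rw [← map_sum, ← hn, ← hc₁, hcb, hs]
    simp only [h2]
    rw [← map_sum, hsum, map_nsmul]

end Fermat.Agent.S55.G.Exist121
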