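import Fermat.Agent.S55.G.Exist121.Sat
import Fermat.Agent.S55.G.Exist121.Trans
import Fermat.Agent.S55.E1.H594.LevelProj
import Fermat.Agent.S55.E1.SpecAlg
import Fermat.Agent.S55.Spec.Datum2

/-!
# S55, layer G, block EXIST: the existence theorem mod `p` over the tower (gd6)

Author: helper121.  For a tower level `L₀ ⊇ μ_p` (`p` odd, `p ∈ S`) let `L₁ = kummerTow p L₀` be
the Kummer level `L₀(V_S(L₀)^{1/p})`; it is a tower level, `Gal(L₁/L₀)` is a `p`-group and `L₁`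
contains a `p`-th root of every element of the `p`-Selmer group of `L₀`.  Hence the finite-level
existence theorem (`ExistCoreSpec`) applies to `L₁/L₀`, and transitivity of norms
(`norm_in_p_trans`) gives, for every level `L ≥ L₁`,
`N_{Gal(L/L₀)} C_S(L) ⊆ p · C_S(L)^{Gal(L/L₀)}`:

* `existenceG_of_core : ExistCoreSpec → (gd6 for G.CRep S L.Gal L.F)`
  (= `GAD.ExistenceSpecG S p` of helper955, stated unfolded here).
-/

set_option autoImplicit false
set_option linter.unusedSectionVars false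
set_option linter.style.haveILetI false

open scoped NumberField
open IsDedekindDomain

noncomputable section

namespace Fermat.Agent.S55.G.Exist121

open Fermat.Agent.S55 Fermat.Agent.S55.Tow Fermat.Agent.S55.E1.H594 Fermat.Agent.S55.G

section Kummer

variable {S : Finset Nat.Primes} (p : ℕ)

/-- A level is stable under `G_ℚ`. -/
lemma level_map_mem (L : Level S) (σ : GQ) (x : Qbar) (hx : x ∈ L.F) : σ x ∈ L.F := by
  have h := levelRestrict_apply L σ ⟨x, hx⟩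
  rw [← h]
  exact (levelRestrict L σ ⟨x, hx⟩).2

/-- If `σ` fixes `F ⊇ μ_p` and `β ^ p ∈ F`, then `σ ^ p` fixes `β`. -/
lemma pow_apply_root (hp0 : p ≠ 0) {F : IntermediateField ℚ Qbar}
    (hμ : ∃ ζ : Qbar, ζ ∈ F ∧ IsPrimitiveRoot ζ p) (σ : GQ) (hσ : ∀ x ∈ F, σ x = x) {β : Qbar}
    (hβ : β ^ p ∈ F) : (σ ^ p) β = β := by
  by_cases hβ0 : β = 0
  · rw [hβ0, map_zero]
  haveI : NeZero p := ⟨hp0⟩
  obtain ⟨ζ, hζF, hζ⟩ := hμ
  set ξ : Qbar := σ β / β with hξ
  have hσβ : σ β = ξ * β := by rw [hξ, div_mul_cancel₀ _ hβ0]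
  have hξp : ξ ^ p = 1 := by
    rw [hξ, div_pow, ← map_pow, hσ _ hβ, div_self (pow_ne_zero p hβ0)]
  obtain ⟨i, -, hi⟩ := hζ.eq_pow_of_pow_eq_one hξp
  have hξF : ξ ∈ F := by rw [← hi]; exact pow_mem hζF i
  have hσξ : σ ξ = ξ := hσ ξ hξF
  have key : ∀ n : ℕ, (σ ^ n) β = ξ ^ n * β := by
    intro n
    induction n with
    | zero => simp
    | succ n ih =>
      rw [pow_succ', AlgEquiv.mul_apply, ih, map_mul, map_pow, hσξ, hσβ, pow_succ]
      ring
  rw [key p, hξp, one_mul]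

/-- If `σ` fixes `F ⊇ μ_p`, then `σ ^ p` fixes the Kummer level of `F`. -/
lemma pow_mem_fixingSubgroup_kummerLevel (hp0 : p ≠ 0) {F : IntermediateField ℚ Qbar}
    (hμ : ∃ ζ : Qbar, ζ ∈ F ∧ IsPrimitiveRoot ζ p) (σ : GQ) (hσ : σ ∈ F.fixingSubgroup) :
    σ ^ p ∈ (kummerLevel S p F).fixingSubgroup := by
  have hfixF : ∀ x ∈ F, σ x = x := fun x hx =>
    (IntermediateField.mem_fixingSubgroup_iff F σ).1 hσ x hx
  rw [kummerLevel, IntermediateField.fixingSubgroup_sup]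
  refine ⟨Subgroup.pow_mem _ hσ p, ?_⟩
  show σ ^ p ∈ (IntermediateField.adjoin ℚ {β | IsSelmerElt S p F (β ^ p)}).fixingSubgroup
  rw [IntermediateField.mem_fixingSubgroup_iff]
  have hle : IntermediateField.adjoin ℚ {β | IsSelmerElt S p F (β ^ p)} ≤
      IntermediateField.fixedField (Subgroup.zpowers (σ ^ p)) := by
    rw [IntermediateField.adjoin_le_iff]
    intro β hβ
    have hβ' : IsSelmerElt S p F (β ^ p) := hβ
    have hσβ : (σ ^ p) β = β := pow_apply_root p hp0 hμ σ hfixF hβ'.1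
    rintro ⟨τ, hτ⟩
    obtain ⟨k, rfl⟩ := Subgroup.mem_zpowers_iff.1 hτ
    show ((σ ^ p) ^ k) • β = β
    have hstab : σ ^ p ∈ MulAction.stabilizer GQ β := MulAction.mem_stabilizer_iff.2 hσβ
    exact MulAction.mem_stabilizer_iff.1 (Subgroup.zpow_mem _ hstab k)
  intro x hx
  exact (hle hx) ⟨σ ^ p, Subgroup.mem_zpowers _⟩

variable [hp : Fact p.Prime]

/-- **The Kummer level as a tower level.** -/
def kummerTow (hpS : (⟨p, hp.out⟩ : Nat.Primes) ∈ S) (L₀ : Level S) : Level S where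
  F := kummerLevel S p L₀.F
  unram := isUnramifiedOutside_kummerLevel S p L₀.F hp.out.pos
    (fun ℓ hℓ => by
      have h1 : (ℓ : ℕ) = p := (Nat.prime_dvd_prime_iff_eq ℓ.2 hp.out).1 hℓ
      have h2 : ℓ = ⟨p, hp.out⟩ := Subtype.ext h1
      rw [h2]
      exact hpS) L₀.unram
  normalU := normal_fixingSubgroup_kummerLevel (level_map_mem L₀)

lemma kummerTow_F (hpS : (⟨p, hp.out⟩ : Nat.Primes) ∈ S) (L₀ : Level S) :
    (kummerTow p hpS L₀).F = kummerLevel S p L₀.F := rfl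

lemma le_kummerTow (hpS : (⟨p, hp.out⟩ : Nat.Primes) ∈ S) (L₀ : Level S) :
    L₀ ≤ kummerTow p hpS L₀ :=
  (le_kummerLevel : L₀.F ≤ kummerLevel S p L₀.F)

/-- `Gal(L₁/L₀)` is a `p`-group (of exponent `p`) for the Kummer level `L₁` of `L₀ ⊇ μ_p`. -/
theorem isPGroup_relGal_kummerTow (hpS : (⟨p, hp.out⟩ : Nat.Primes) ∈ S) (L₀ : Level S)
    (hμ : L₀.HasMu p) : IsPGroup p (Level.relGal (le_kummerTow p hpS L₀)) := by
  rintro ⟨g, hg⟩
  refine ⟨1, ?_⟩
  induction g using QuotientGroup.induction_on with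
  | H σ =>
    have hσ : σ ∈ L₀.U := (mk_mem_relGal_iff (le_kummerTow p hpS L₀) σ).1 hg
    have h1 : σ ^ p ∈ (kummerTow p hpS L₀).U :=
      pow_mem_fixingSubgroup_kummerLevel p hp.out.ne_zero hμ σ hσ
    apply Subtype.ext
    rw [pow_one]
    show (QuotientGroup.mk σ : (kummerTow p hpS L₀).Gal) ^ p = 1
    rw [← QuotientGroup.mk_pow]
    exact (QuotientGroup.eq_one_iff _).2 h1

end Kummer

section Levels

variable {S : Finset Nat.Primes}

lemma level_proj_comp {L₀ L₁ L : Level S} (h₀₁ : L₀ ≤ L₁) (h₁ : L₁ ≤ L) (g : L.Gal) :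
    Level.proj h₀₁ (Level.proj h₁ g) = Level.proj (h₀₁.trans h₁) g := by
  induction g using QuotientGroup.induction_on with
  | H g => rfl

/-- `Gal(F'/F)` is a Galois group for `F'/F` (for helper594's `levelAlgebra`). -/
theorem isGaloisGroup_relGal {L L' : Level S} (h : L ≤ L') :
    @IsGaloisGroup (Level.relGal h) L.F L'.F _ _ _ (levelAlgebra h) _ := by
  letI := levelAlgebra h
  have hfix : ∀ x : L'.F, (∀ n : Level.relGal h, (n : L'.Gal) • x = x) ↔
      x ∈ (algebraMap L.F L'.F).range := level_relGal_fixed_iff h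
  have hfixN : ∀ (n : Level.relGal h) (k : L.F),
      (n : L'.Gal) • algebraMap L.F L'.F k = algebraMap L.F L'.F k := fun n k =>
    ((hfix (algebraMap L.F L'.F k)).2 ⟨k, rfl⟩) n
  exact
    { faithful := ⟨fun {a b} hab =>
        Subtype.ext (eq_of_smul_eq_smul (α := L'.F) fun x => hab x)⟩
      commutes := ⟨fun n k x => by
        change (n : L'.Gal) • (k • x) = k • ((n : L'.Gal) • x)
        rw [Algebra.smul_def, Algebra.smul_def, smul_mul', hfixN]⟩
      isInvariant := ⟨fun x hx => by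
        obtain ⟨k, hk⟩ := (hfix x).1 hx
        exact ⟨k, hk⟩⟩ }

/-- The restriction `Gal(L/L₀) → Gal(L₁/L₀)` for `L₀ ≤ L₁ ≤ L`. -/
def relProj {L₀ L₁ L : Level S} (h₀₁ : L₀ ≤ L₁) (h₁ : L₁ ≤ L) :
    Level.relGal (h₀₁.trans h₁) →* Level.relGal h₀₁ :=
  ((Level.proj h₁).comp (Level.relGal (h₀₁.trans h₁)).subtype).codRestrict (Level.relGal h₀₁)
    (fun g => by
      show Level.proj h₀₁ (Level.proj h₁ (g : L.Gal)) = 1
      rw [level_proj_comp]
      exact g.2)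

lemma coe_relProj {L₀ L₁ L : Level S} (h₀₁ : L₀ ≤ L₁) (h₁ : L₁ ≤ L)
    (g : Level.relGal (h₀₁.trans h₁)) :
    ((relProj h₀₁ h₁ g : Level.relGal h₀₁) : L₁.Gal) = Level.proj h₁ (g : L.Gal) := rfl

lemma relProj_surjective {L₀ L₁ L : Level S} (h₀₁ : L₀ ≤ L₁) (h₁ : L₁ ≤ L) :
    Function.Surjective (relProj h₀₁ h₁) := by
  rintro ⟨q, hq⟩
  obtain ⟨g, rfl⟩ := level_proj_surjective h₁ q
  refine ⟨⟨g, ?_⟩, Subtype.ext rfl⟩
  show Level.proj (h₀₁.trans h₁) g = 1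
  rw [← level_proj_comp h₀₁ h₁]
  exact hq

lemma mem_relGal_of_mem_ker_relProj {L₀ L₁ L : Level S} (h₀₁ : L₀ ≤ L₁) (h₁ : L₁ ≤ L)
    (n : (relProj h₀₁ h₁).ker) : ((n : Level.relGal (h₀₁.trans h₁)) : L.Gal) ∈ Level.relGal h₁ := by
  have h := (MonoidHom.mem_ker).1 n.2
  have h2 := congrArg (fun x : Level.relGal h₀₁ => (x : L₁.Gal)) h
  exact h2

/-- `ker (Gal(L/L₀) → Gal(L₁/L₀))` is a Galois group for `L/L₁`. -/
theorem isGaloisGroup_ker_relProj {L₀ L₁ L : Level S} (h₀₁ : L₀ ≤ L₁) (h₁ : L₁ ≤ L) :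
    @IsGaloisGroup (relProj h₀₁ h₁).ker L₁.F L.F _ _ _ (levelAlgebra h₁) _ := by
  letI := levelAlgebra h₁
  have hfix : ∀ x : L.F, (∀ n : Level.relGal h₁, (n : L.Gal) • x = x) ↔
      x ∈ (algebraMap L₁.F L.F).range := level_relGal_fixed_iff h₁
  have hfixN : ∀ (n : (relProj h₀₁ h₁).ker) (k : L₁.F),
      ((n : Level.relGal (h₀₁.trans h₁)) : L.Gal) • algebraMap L₁.F L.F k =
        algebraMap L₁.F L.F k := fun n k =>
    ((hfix (algebraMap L₁.F L.F k)).2 ⟨k, rfl⟩) ⟨_, mem_relGal_of_mem_ker_relProj h₀₁ h₁ n⟩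
  exact
    { faithful := ⟨fun {a b} hab =>
        Subtype.ext (Subtype.ext (eq_of_smul_eq_smul (α := L.F) fun x => hab x))⟩
      commutes := ⟨fun n k x => by
        change ((n : Level.relGal (h₀₁.trans h₁)) : L.Gal) • (k • x) =
          k • (((n : Level.relGal (h₀₁.trans h₁)) : L.Gal) • x)
        rw [Algebra.smul_def, Algebra.smul_def, smul_mul', hfixN]⟩
      isInvariant := ⟨fun x hx => by
        have hx' : ∀ n : Level.relGal h₁, (n : L.Gal) • x = x := by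
          rintro ⟨n, hn⟩
          have hn' : n ∈ Level.relGal (h₀₁.trans h₁) := by
            show Level.proj (h₀₁.trans h₁) n = 1
            rw [← level_proj_comp h₀₁ h₁]
            have : Level.proj h₁ n = 1 := hn
            rw [this, map_one]
          have hker : (⟨n, hn'⟩ : Level.relGal (h₀₁.trans h₁)) ∈ (relProj h₀₁ h₁).ker := by
            rw [MonoidHom.mem_ker]
            exact Subtype.ext hn
          exact hx ⟨⟨n, hn'⟩, hker⟩
        obtain ⟨k, hk⟩ := (hfix x).1 hx'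
        exact ⟨k, hk⟩⟩ }

end Levels

section Main

variable {S : Finset Nat.Primes} (p : ℕ) [hp : Fact p.Prime]

/-- **One Kummer step**: `N_{Gal(L₁/L₀)} C_S(L₁) ⊆ p · C_S(L₁)^{Gal(L₁/L₀)}` for the Kummer level
`L₁` of `L₀ ⊇ μ_p`, in the language of the subgroup `Gal(L₁/L₀)` acting on `L₁`. -/
theorem kummerStep_of_core (hp2 : p ≠ 2) (hpS : (⟨p, hp.out⟩ : Nat.Primes) ∈ S)
    (hCore : ExistCoreSpec) (L₀ : Level S) (hμ : L₀.HasMu p)
    [Fintype (Level.relGal (le_kummerTow p hpS L₀))] :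
    ∀ c : CS S (kummerTow p hpS L₀).F, ∃ c₀ : CS S (kummerTow p hpS L₀).F,
      (∀ g : Level.relGal (le_kummerTow p hpS L₀),
        cRepr S (Level.relGal (le_kummerTow p hpS L₀)) (kummerTow p hpS L₀).F g c₀ = c₀) ∧
      ∑ g : Level.relGal (le_kummerTow p hpS L₀),
        cRepr S (Level.relGal (le_kummerTow p hpS L₀)) (kummerTow p hpS L₀).F g c = p • c₀ := by
  set L₁ := kummerTow p hpS L₀ with hL₁
  have h₀₁ : L₀ ≤ L₁ := le_kummerTow p hpS L₀
  letI := levelAlgebra h₀₁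
  haveI := isGaloisGroup_relGal h₀₁
  obtain ⟨ζ, hζF, hζ⟩ := hμ
  refine hCore p hp2 S (Level.relGal h₀₁) L₀.F L₁.F hpS
    (isPGroup_relGal_kummerTow p hpS L₀ ⟨ζ, hζF, hζ⟩)
    (level_isUnramOut_subgroup L₁ _) ⟨⟨ζ, hζF⟩, ?_⟩ ?_
  · exact IsPrimitiveRoot.of_map_of_injective (f := L₀.F.val) hζ Subtype.val_injective
  · intro x hx
    obtain ⟨β, hβ, hβx⟩ := exists_root_mem_kummerLevel S p L₀.F hp.out.ne_zero x hx
    exact ⟨⟨β, hβ⟩, Subtype.ext hβx⟩

/-- **The existence theorem mod `p` over the tower** (gd6 for `G.CRep S L.Gal L.F`, i.e.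
helper955's `GAD.ExistenceSpecG S p`), from the finite-level core. -/
theorem existenceG_of_core (hp2 : p ≠ 2) (hpS : (⟨p, hp.out⟩ : Nat.Primes) ∈ S)
    (hCore : ExistCoreSpec) :
    ∀ L₀ : Level S, L₀.HasMu p → ∃ L₁ : Level S, L₀ ≤ L₁ ∧
      ∀ (L : Level S) (h : L₀ ≤ L), L₁ ≤ L →
        @E1.NormInP p L.Gal _ (Level.relGal h) (Fintype.ofFinite _) (G.CRep S L.Gal L.F) := by
  intro L₀ hμ
  refine ⟨kummerTow p hpS L₀, le_kummerTow p hpS L₀, fun L h h₁ => ?_⟩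
  set L₁ := kummerTow p hpS L₀ with hL₁
  have h₀₁ : L₀ ≤ L₁ := le_kummerTow p hpS L₀
  letI : Fintype (Level.relGal h₀₁) := Fintype.ofFinite _
  letI : Fintype (Level.relGal (h₀₁.trans h₁)) := Fintype.ofFinite _
  letI := levelAlgebra h₁
  haveI := isGaloisGroup_ker_relProj h₀₁ h₁
  have hstep := kummerStep_of_core p hp2 hpS hCore L₀ hμ
  have hS : S.Nonempty := ⟨_, hpS⟩
  have hcompat : ∀ (g : Level.relGal (h₀₁.trans h₁)) (x : L₁.F),
      algebraMap L₁.F L.F (relProj h₀₁ h₁ g • x) = g • algebraMap L₁.F L.F x :=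
    fun g x => levelIncl_proj_smul h₁ (g : L.Gal) x
  have key := norm_in_p_trans S p (Level.relGal (h₀₁.trans h₁)) (Level.relGal h₀₁) L₁.F L.F
    (relProj h₀₁ h₁) (relProj_surjective h₀₁ h₁) hcompat hS (level_isUnramOut_subgroup L _) hstep
  intro c
  obtain ⟨c₀, hinv, hsum⟩ := key c
  refine ⟨c₀, fun g hg => ?_, ?_⟩
  · have h1 := hinv ⟨g, hg⟩
    rw [DescH773.cRepr_subgroup] at h1
    exact h1
  · refine Eq.trans ?_ hsum
    exact Finset.sum_congr rfl (fun g _ => (DescH773.cRepr_subgroup S L.Gal L.F _ g c).symm)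

end Main

end Fermat.Agent.S55.G.Exist121
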